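import Fermat.Agent.S37.Mod.Inst
import Fermat.Agent.SS.Formal.RedUp

/-!
# S44 / Eis : definitions (non-cuspidal `p`-divisibility)

`M` a level prime to `p`, `A` a valuation ring of `ℚ̄` over `p`, `k = kA A`,
`Ft = S37.Mod.resF M A ⊂ k((q))` the residue field of the Gauss valuation of `FF M`.

* `jt M A : resF M A`      : the reduction `j̄` of `j`;
* `NCk M A p r`            : `r ∈ Ftˣ` and `p ∣ ord_P r` for all places `P` of `Ft/k` with
                             `0 ≤ ord_P j̄` (the NON-cuspidal places);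
* `ALLk M A p r`           : the same for ALL places;
* `HasRed M A u`           : `u ∈ ℚ̄((q))` reduces, up to a nonzero constant, to an element of `Ftˣ`;
* `NC M A p u`, `ALLP M A p u` : `u` reduces, up to a nonzero constant, to some `r` with `NCk` / `ALLk`.
-/

set_option autoImplicit false

open AlgebraicCurve ModularCurve

namespace Fermat.Agent.S44.Eis

open Fermat.Agent.ES (Qb FF)
open Fermat.Agent.S37.Mod (kA resF)
open Fermat.Agent.SS (RedTo RedUp)

noncomputable section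

variable (M : ℕ) [NeZero M] (A : ValuationSubring Qb)

theorem jqModC_mem_resF : jqModC (kA A) ∈ resF M A := by
  have hr := Fermat.Agent.S37.Mod.RedRel.of_isI (Fermat.Agent.S37.Mod.isI_j M A)
  have h3 : Fermat.Agent.S37.Mod.rd A (jqModC A) = jqModC (kA A) := coeffMap_jqModC _
  rw [h3] at hr
  exact ⟨_, hr⟩

/-- `j̄ ∈ Ft`. -/
def jt : resF M A := ⟨jqModC (kA A), jqModC_mem_resF M A⟩

/-- `r ∈ Ftˣ`, and `p ∣ ord_P r` at all non-cuspidal places of `Ft / k`. -/
def NCk (p : ℕ) (r : LaurentSeries (kA A)) : Prop :=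
  ∃ hr : r ∈ resF M A, r ≠ 0 ∧
    ∀ P : Place (kA A) (resF M A), 0 ≤ P.ord (jt M A) → (p : ℤ) ∣ P.ord (⟨r, hr⟩ : resF M A)

/-- `r ∈ Ftˣ`, and `p ∣ ord_P r` at all places of `Ft / k`. -/
def ALLk (p : ℕ) (r : LaurentSeries (kA A)) : Prop :=
  ∃ hr : r ∈ resF M A, r ≠ 0 ∧
    ∀ P : Place (kA A) (resF M A), (p : ℤ) ∣ P.ord (⟨r, hr⟩ : resF M A)

/-- `u` reduces (up to a nonzero constant) to a nonzero element of `Ft`. -/
def HasRed (u : LaurentSeries Qb) : Prop :=
  ∃ r : LaurentSeries (kA A), RedUp A u r ∧ r ≠ 0 ∧ r ∈ resF M A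

/-- `NC(u)` of the blueprint. -/
def NC (p : ℕ) (u : LaurentSeries Qb) : Prop :=
  ∃ r : LaurentSeries (kA A), RedUp A u r ∧ NCk M A p r

/-- `ALLP(u)` of the blueprint. -/
def ALLP (p : ℕ) (u : LaurentSeries Qb) : Prop :=
  ∃ r : LaurentSeries (kA A), RedUp A u r ∧ ALLk M A p r

end

end Fermat.Agent.S44.Eis
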