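import Fermat.Agent.S44.Eis.Defs

/-!
# S44 / Eis / Basic : the calculus of `NCk`, `NC`, `HasRed`

All proofs are a few lines (`Place.ord_mul`, `Place.ord_inv`, `Place.ord_zpow`, `Place.ord` of a nonzero constant is `0`
(`Place.ord_algebraMap` or the lemma used in `ES/Defs.lean`/`S26/FF`), `RedUp.mul/inv/pow`, `RedTo.const`).

* `RedUp.unique_up` : `RedTo (cst c₁ * u) r`, `RedTo (cst c₂ * u) r'`; `(h₂.mul (h₁.inv hr))` is
  `RedTo (cst (c₂ / c₁)) (r' / r)` (`u ≠ 0` because `r ≠ 0`); `RedTo.const`.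
* `NC.of_zpow` : `RedUp u r₀` with `r₀ ∈ Ftˣ` (`HasRed`), so `RedUp (u^n) (r₀^n)`; `unique_up` + `NCk.const_mul`:
  `NCk (r₀ ^ n)`; `p ∣ n * ord_P r₀`, `p` prime, `p ∤ n`.
-/

set_option autoImplicit false

open AlgebraicCurve ModularCurve

namespace Fermat.Agent.S44.Eis

open Fermat.Agent.ES (Qb FF)
open Fermat.Agent.S37.Mod (kA resF)
open Fermat.Agent.SS (RedTo RedUp cst cstk)

noncomputable section

variable {M : ℕ} [NeZero M] {A : ValuationSubring Qb} {p : ℕ}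
variable {r r' : LaurentSeries (kA A)} {u u' : LaurentSeries Qb}

/-! ### residue side -/

theorem NCk.ne_zero (h : NCk M A p r) : r ≠ 0 := h.2.1

theorem NCk.mem (h : NCk M A p r) : r ∈ resF M A := h.1

theorem ALLk.nck (h : ALLk M A p r) : NCk M A p r := by
  obtain ⟨hr, h0, h⟩ := h
  exact ⟨hr, h0, fun P _ => h P⟩

theorem NCk.one : NCk M A p 1 := by
  refine ⟨one_mem _, one_ne_zero, fun P _ => ?_⟩
  have e : (⟨1, one_mem _⟩ : resF M A) = 1 := rfl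
  rw [e, Place.ord_one]
  exact dvd_zero _

theorem NCk.mul (h : NCk M A p r) (h' : NCk M A p r') : NCk M A p (r * r') := by
  obtain ⟨hr, h0, h⟩ := h
  obtain ⟨hr', h0', h'⟩ := h'
  refine ⟨mul_mem hr hr', mul_ne_zero h0 h0', fun P hP => ?_⟩
  have e : (⟨r * r', mul_mem hr hr'⟩ : resF M A) = ⟨r, hr⟩ * ⟨r', hr'⟩ := rfl
  rw [e, P.ord_mul (fun h => h0 (congrArg Subtype.val h)) (fun h => h0' (congrArg Subtype.val h))]
  exact dvd_add (h P hP) (h' P hP)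

theorem NCk.inv (h : NCk M A p r) : NCk M A p r⁻¹ := by
  obtain ⟨hr, h0, h⟩ := h
  refine ⟨inv_mem hr, inv_ne_zero h0, fun P hP => ?_⟩
  have e : (⟨r⁻¹, inv_mem hr⟩ : resF M A) = (⟨r, hr⟩ : resF M A)⁻¹ := rfl
  rw [e, P.ord_inv]
  exact (dvd_neg).2 (h P hP)

theorem NCk.pow (h : NCk M A p r) (n : ℕ) : NCk M A p (r ^ n) := by
  induction n with
  | zero => rw [pow_zero]; exact NCk.one
  | succ n ih => rw [pow_succ]; exact ih.mul h

theorem NCk.zpow (h : NCk M A p r) (n : ℤ) : NCk M A p (r ^ n) := by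
  cases n with
  | ofNat n => rw [Int.ofNat_eq_natCast, zpow_natCast]; exact h.pow n
  | negSucc n => rw [zpow_negSucc]; exact (h.pow (n + 1)).inv

theorem NCk.const {c : kA A} (hc : c ≠ 0) : NCk M A p (cstk A c) := by
  refine ⟨(resF M A).algebraMap_mem c, (map_ne_zero _).2 hc, fun P _ => ?_⟩
  have e : (⟨cstk A c, (resF M A).algebraMap_mem c⟩ : resF M A) =
      algebraMap (kA A) (resF M A) c := rfl
  rw [e, Fermat.Agent.S24.FF.ord_algebraMap]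
  exact dvd_zero _

theorem NCk.const_mul {c : kA A} (hc : c ≠ 0) (h : NCk M A p r) : NCk M A p (cstk A c * r) :=
  (NCk.const hc).mul h

theorem NCk.of_const_mul {c : kA A} (hc : c ≠ 0) (h : NCk M A p (cstk A c * r)) :
    NCk M A p r := by
  have h1 := (NCk.const (M := M) (p := p) (inv_ne_zero hc)).mul h
  have e : cstk A c⁻¹ * (cstk A c * r) = r := by
    rw [← mul_assoc, ← map_mul, inv_mul_cancel₀ hc, map_one, one_mul]
  rwa [e] at h1

/-- `p`-th powers -/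
theorem NCk.ppow (hr : r ∈ resF M A) (h0 : r ≠ 0) : NCk M A p (r ^ p) := by
  refine ⟨pow_mem hr p, pow_ne_zero p h0, fun P _ => ?_⟩
  have e : (⟨r ^ p, pow_mem hr p⟩ : resF M A) = (⟨r, hr⟩ : resF M A) ^ (p : ℤ) := by
    rw [zpow_natCast]; rfl
  rw [e, P.ord_zpow]
  exact dvd_mul_right _ _

theorem NCk.of_zpow (hp : p.Prime) {n : ℤ} (hn : ¬ (p : ℤ) ∣ n) (hr : r ∈ resF M A)
    (h : NCk M A p (r ^ n)) : NCk M A p r := by
  obtain ⟨hrn, h0, h⟩ := h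
  have hn0 : n ≠ 0 := by
    rintro rfl
    exact hn (dvd_zero _)
  have hr0 : r ≠ 0 := by
    rintro rfl
    exact h0 (zero_zpow n hn0)
  refine ⟨hr, hr0, fun P hP => ?_⟩
  have e : (⟨r ^ n, hrn⟩ : resF M A) = (⟨r, hr⟩ : resF M A) ^ n :=
    Subtype.ext (map_zpow₀ (resF M A).val (⟨r, hr⟩ : resF M A) n).symm
  have h1 := h P hP
  rw [e, P.ord_zpow] at h1
  exact ((Nat.prime_iff_prime_int.1 hp).dvd_or_dvd h1).resolve_left hn

/-! ### reduction up to constants -/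

theorem RedUp.zpow (h : RedUp A u r) (hr : r ≠ 0) (n : ℤ) : RedUp A (u ^ n) (r ^ n) := by
  cases n with
  | ofNat n => simpa using h.pow n
  | negSucc n =>
    rw [zpow_negSucc, zpow_negSucc]
    exact (h.pow (n + 1)).inv (pow_ne_zero _ hr)

theorem RedUp.const_mul {c : Qb} (hc : c ≠ 0) (h : RedUp A u r) : RedUp A (cst c * u) r := by
  obtain ⟨d, hd, h⟩ := h
  refine ⟨d / c, div_ne_zero hd hc, h.congr ?_ rfl⟩
  rw [← mul_assoc, cst, cst, cst, ← map_mul, div_mul_cancel₀ _ hc]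

theorem RedUp.unique_up (h : RedUp A u r) (h' : RedUp A u r') (hr : r ≠ 0) (hr' : r' ≠ 0) :
    ∃ c : kA A, c ≠ 0 ∧ r' = cstk A c * r := by
  obtain ⟨c₁, hc₁, h₁⟩ := h
  obtain ⟨c₂, hc₂, h₂⟩ := h'
  have hzero : RedTo A 0 0 := by
    refine ⟨0, 1, ?_, ?_, ?_⟩
    · rw [map_one]; exact one_ne_zero
    · rw [map_zero, zero_mul]
    · rw [map_zero, zero_mul]
  have hu : u ≠ 0 := by
    rintro rfl
    rw [mul_zero] at h₁
    exact hr (h₁.unique hzero)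
  have hc₁' : cst c₁ ≠ 0 := (map_ne_zero _).2 hc₁
  have h3 := h₂.mul (h₁.inv hr)
  have e : cst c₂ * u * (cst c₁ * u)⁻¹ = cst (c₂ / c₁) := by
    rw [cst, cst, cst, map_div₀]
    field_simp
  rw [e] at h3
  obtain ⟨a, -, ha⟩ := h3.const
  refine ⟨Fermat.Agent.ES.resA A a, ?_, ?_⟩
  · intro h0
    rw [h0, cstk, map_zero] at ha
    exact mul_ne_zero hr' (inv_ne_zero hr) ha
  · rw [← ha, inv_mul_cancel_right₀ hr]

/-! ### `HasRed` -/

theorem HasRed.mul (h : HasRed M A u) (h' : HasRed M A u') : HasRed M A (u * u') := by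
  obtain ⟨r, h1, h2, h3⟩ := h
  obtain ⟨r', h1', h2', h3'⟩ := h'
  exact ⟨r * r', h1.mul h1', mul_ne_zero h2 h2', mul_mem h3 h3'⟩

theorem HasRed.inv (h : HasRed M A u) : HasRed M A u⁻¹ := by
  obtain ⟨r, h1, h2, h3⟩ := h
  exact ⟨r⁻¹, h1.inv h2, inv_ne_zero h2, inv_mem h3⟩

theorem HasRed.zpow (h : HasRed M A u) (n : ℤ) : HasRed M A (u ^ n) := by
  obtain ⟨r, h1, h2, h3⟩ := h
  exact ⟨r ^ n, RedUp.zpow h1 h2 n, zpow_ne_zero n h2, zpow_mem h3 n⟩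

theorem HasRed.pow (h : HasRed M A u) (n : ℕ) : HasRed M A (u ^ n) := by
  obtain ⟨r, h1, h2, h3⟩ := h
  exact ⟨r ^ n, h1.pow n, pow_ne_zero n h2, pow_mem h3 n⟩

theorem NC.hasRed (h : NC M A p u) : HasRed M A u := by
  obtain ⟨r, h1, h2⟩ := h
  exact ⟨r, h1, h2.ne_zero, h2.mem⟩

/-- elements of the function field of level `M` itself -/
theorem hasRed_of_mem (f : FF M) (hf : f ≠ 0) : HasRed M A (f : LaurentSeries Qb) := by
  obtain ⟨c, r, hc, hr, h⟩ := Fermat.Agent.S37.Mod.exists_redRel_scale (A := A) f hf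
  refine ⟨r, ⟨c, hc, ?_⟩, hr, ⟨_, h⟩⟩
  obtain ⟨a, b, -, -, hb, h1, h2⟩ := h
  exact ⟨a, b, hb, h1, h2.symm⟩

/-! ### `NC` -/

theorem NC.mul (h : NC M A p u) (h' : NC M A p u') : NC M A p (u * u') := by
  obtain ⟨r, h1, h2⟩ := h
  obtain ⟨r', h1', h2'⟩ := h'
  exact ⟨r * r', h1.mul h1', h2.mul h2'⟩

theorem NC.inv (h : NC M A p u) : NC M A p u⁻¹ := by
  obtain ⟨r, h1, h2⟩ := h
  exact ⟨r⁻¹, h1.inv h2.ne_zero, h2.inv⟩

theorem NC.zpow (h : NC M A p u) (n : ℤ) : NC M A p (u ^ n) := by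
  obtain ⟨r, h1, h2⟩ := h
  exact ⟨r ^ n, RedUp.zpow h1 h2.ne_zero n, h2.zpow n⟩

theorem NC.pow (h : NC M A p u) (n : ℕ) : NC M A p (u ^ n) := by
  obtain ⟨r, h1, h2⟩ := h
  exact ⟨r ^ n, h1.pow n, h2.pow n⟩

theorem NC.const_mul {c : Qb} (hc : c ≠ 0) (h : NC M A p u) : NC M A p (cst c * u) := by
  obtain ⟨r, h1, h2⟩ := h
  exact ⟨r, RedUp.const_mul hc h1, h2⟩

theorem NC.of_const_mul {c : Qb} (hc : c ≠ 0) (h : NC M A p (cst c * u)) : NC M A p u := by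
  have h1 := h.const_mul (inv_ne_zero hc)
  have e : cst c⁻¹ * (cst c * u) = u := by
    rw [← mul_assoc, cst, cst, ← map_mul, inv_mul_cancel₀ hc, map_one, one_mul]
  rwa [e] at h1

theorem NC.ppow (h : HasRed M A u) : NC M A p (u ^ p) := by
  obtain ⟨r, h1, h2, h3⟩ := h
  exact ⟨r ^ p, h1.pow p, NCk.ppow h3 h2⟩

/-- every reduction of `u` is `NCk` -/
theorem NC.nck (h : NC M A p u) (hr : RedUp A u r) (h0 : r ≠ 0) : NCk M A p r := by
  obtain ⟨r₁, h1, h2⟩ := h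
  obtain ⟨c, hc, rfl⟩ := RedUp.unique_up h1 hr h2.ne_zero h0
  exact h2.const_mul hc

theorem NC.of_zpow (hp : p.Prime) {n : ℤ} (hn : ¬ (p : ℤ) ∣ n) (hu : HasRed M A u)
    (h : NC M A p (u ^ n)) : NC M A p u := by
  obtain ⟨r₀, h1, h2, h3⟩ := hu
  exact ⟨r₀, h1, NCk.of_zpow hp hn h3 (h.nck (RedUp.zpow h1 h2 n) (zpow_ne_zero n h2))⟩

theorem NC.congr (h : NC M A p u) (e : u = u') : NC M A p u' := e ▸ h

end

end Fermat.Agent.S44.Eis
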