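import Fermat.Agent.S44.Eis.Defs

/-!
# S44 / Eis / Red : (J1) reduction commutes with the multiplicative Hecke operator `heckeSer ℓ`, `ℓ ≠ p`

All formal.  `A | p`, `ℓ ≠ p` prime.

PROOFS.
* `bijective_restrict_res` : `μ_ℓ(A) → μ_ℓ(k_A)` is bijective.  Both sides have `ℓ` elements
  (`ES.card_rootsOfUnity_A`; `k_A` is algebraically closed (`S37.Mod.instIsAlgClosedKA`) of characteristic `p ≠ ℓ`
  (`ES.charP_kA`), so `HasEnoughRootsOfUnity (kA A) ℓ` / `IsAlgClosed.card_rootsOfUnity`), so injectivity is enough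
  (`Fintype.bijective_iff_injective_and_card`).  Injective: kernel trivial; if `z ≠ 1`, `z^ℓ = 1`, then `z` is a primitive
  `ℓ`-th root of unity (`ℓ` prime), `∏_{0<i<ℓ} (1 - z^i) = ℓ` (`IsPrimitiveRoot.pow_sub_one_eq`/`Polynomial.cyclotomic_prime`,
  `eval 1`), so `res z = 1` would give `(ℓ : k_A) = 0`.  (Or: `X^ℓ - 1` is separable over `k_A`.)
* `RedTo.heckeSer` : `x * ι y₂ = ι y₁`, `res y₁ = r * res y₂`.  Take `heckeSer ℓ y₁`, `heckeSer ℓ y₂ ∈ A((q))`: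
  `ES.coeffMap_subtype_heckeSer`, `ES.coeffMap_heckeSer (resA A) ℓ bijective_restrict_res`, `ES.heckeSer_mul`
  (primitive roots: `ES.exists_primitiveRoot_Qb`, `exists_primitiveRoot_kA`), `heckeSer_ne_zero`.
* `heckeSer_ne_zero` : `Vq` injective; `Vq (normSer x) = twistProd x = ∏ twist z x` (`ES.Vq_normSer`), `twist z` injective
  (coefficients are multiplied by units).
* `heckeSer_cst` : `Vq_cst`, `twistProd_cst` (`SS/Formal/RedUp.lean`), `contract` of a constant (coefficientwise).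
-/

set_option autoImplicit false

open AlgebraicCurve ModularCurve

namespace Fermat.Agent.S44.Eis

open Fermat.Agent.ES (Qb FF heckeSer Vq twist twistProd normSer contract resA)
open Fermat.Agent.S37.Mod (kA resF)
open Fermat.Agent.SS (RedTo RedUp cst cstk)

noncomputable section

variable {A : ValuationSubring Qb} {p ℓ : ℕ} [NeZero ℓ]

theorem natCast_ne_zero_kA (hp : p.Prime) (hA : A.LiesOverPrime p) (hℓ : ℓ.Prime) (hℓp : ℓ ≠ p) :
    (ℓ : kA A) ≠ 0 := by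
  haveI := Fermat.Agent.ES.charP_kA hp hA
  intro h
  have h1 := (CharP.cast_eq_zero_iff (kA A) p ℓ).mp h
  exact hℓp ((Nat.prime_dvd_prime_iff_eq hp hℓ).mp h1).symm

theorem exists_primitiveRoot_kA (hp : p.Prime) (hA : A.LiesOverPrime p) (hℓ : ℓ.Prime)
    (hℓp : ℓ ≠ p) : ∃ ζ : kA A, IsPrimitiveRoot ζ ℓ := by
  haveI : NeZero (ℓ : kA A) := ⟨natCast_ne_zero_kA hp hA hℓ hℓp⟩
  exact HasEnoughRootsOfUnity.exists_primitiveRoot (kA A) ℓ

theorem bijective_restrict_res (hp : p.Prime) (hA : A.LiesOverPrime p) (hℓ : ℓ.Prime)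
    (hℓp : ℓ ≠ p) : Function.Bijective (restrictRootsOfUnity (resA A) ℓ) := by
  rw [Fintype.bijective_iff_injective_and_card]
  constructor
  · rw [injective_iff_map_eq_one]
    intro z hz
    by_contra hne
    have hz1 : resA A ((z : Aˣ) : A) = 1 := by
      have h1 : ((restrictRootsOfUnity (resA A) ℓ z : (kA A)ˣ) : kA A) = 1 := by rw [hz]; rfl
      rwa [restrictRootsOfUnity_coe_apply] at h1
    have hzℓ : ((z : Aˣ) : A) ^ ℓ = 1 := by
      have := z.2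
      rw [mem_rootsOfUnity] at this
      rw [← Units.val_pow_eq_pow_val, this, Units.val_one]
    have hz0 : ((z : Aˣ) : A) - 1 ≠ 0 := by
      intro h
      apply hne
      exact Subtype.ext (Units.ext (sub_eq_zero.mp h))
    have hsum : (∑ i ∈ Finset.range ℓ, ((z : Aˣ) : A) ^ i) = 0 := by
      have h2 := geom_sum_mul ((z : Aˣ) : A) ℓ
      rw [hzℓ, sub_self] at h2
      exact (mul_eq_zero.mp h2).resolve_right hz0
    have h3 := congrArg (resA A) hsum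
    rw [map_sum, map_zero] at h3
    simp only [map_pow, hz1, one_pow, Finset.sum_const, Finset.card_range, nsmul_eq_mul,
      mul_one] at h3
    exact natCast_ne_zero_kA hp hA hℓ hℓp h3
  · rw [Fermat.Agent.ES.card_rootsOfUnity_A]
    obtain ⟨ζ, hζ⟩ := exists_primitiveRoot_kA hp hA hℓ hℓp
    rw [← Nat.card_eq_fintype_card]
    exact hζ.card_rootsOfUnity.symm

theorem heckeSer_ne_zero {K : Type*} [Field K] {ζ : K} (hζ : IsPrimitiveRoot ζ ℓ)
    {x : LaurentSeries K} (hx : x ≠ 0) : heckeSer ℓ x ≠ 0 := by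
  rw [Fermat.Agent.ES.heckeSer]
  refine mul_ne_zero ?_ ?_
  · intro h
    exact hx (Fermat.Agent.ES.Vq_injective ℓ (by rw [h, map_zero]))
  · intro h
    have h1 := Fermat.Agent.ES.Vq_normSer ℓ hζ x
    rw [h, map_zero, Fermat.Agent.ES.twistProd] at h1
    have h2 : (∏ z : rootsOfUnity ℓ K, twist (z : Kˣ) x) ≠ 0 := by
      rw [Finset.prod_ne_zero_iff]
      intro z _ hz
      exact hx ((twist (z : Kˣ)).injective (by rw [hz, map_zero]))
    exact h2 h1.symm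

theorem heckeSer_inv {K : Type*} [Field K] {ζ : K} (hζ : IsPrimitiveRoot ζ ℓ)
    (x : LaurentSeries K) : heckeSer ℓ x⁻¹ = (heckeSer ℓ x)⁻¹ := by
  by_cases hx : x = 0
  · subst hx
    have h0 : heckeSer ℓ (0 : LaurentSeries K) = 0 := by
      rw [Fermat.Agent.ES.heckeSer, map_zero, zero_mul]
    rw [inv_zero, h0, inv_zero]
  · have h1 := Fermat.Agent.ES.heckeSer_mul ℓ hζ x x⁻¹
    rw [mul_inv_cancel₀ hx, Fermat.Agent.ES.heckeSer_one] at h1
    exact eq_inv_of_mul_eq_one_right h1.symm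

theorem heckeSer_pow {K : Type*} [Field K] {ζ : K} (hζ : IsPrimitiveRoot ζ ℓ)
    (x : LaurentSeries K) (n : ℕ) : heckeSer ℓ (x ^ n) = heckeSer ℓ x ^ n := by
  induction n with
  | zero => rw [pow_zero, pow_zero, Fermat.Agent.ES.heckeSer_one]
  | succ n ih => rw [pow_succ, pow_succ, Fermat.Agent.ES.heckeSer_mul ℓ hζ, ih]

theorem heckeSer_zpow {K : Type*} [Field K] {ζ : K} (hζ : IsPrimitiveRoot ζ ℓ)
    (x : LaurentSeries K) (n : ℤ) : heckeSer ℓ (x ^ n) = heckeSer ℓ x ^ n := by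
  cases n with
  | ofNat n => simpa using heckeSer_pow hζ x n
  | negSucc n =>
    rw [zpow_negSucc, zpow_negSucc, heckeSer_inv hζ, heckeSer_pow hζ]

theorem heckeSer_cst (c : Qb) : heckeSer ℓ (cst c) = cst (c ^ (ℓ + 1)) := by
  rw [Fermat.Agent.ES.heckeSer, Fermat.Agent.ES.normSer, Fermat.Agent.SS.twistProd_cst,
    Fermat.Agent.SS.Vq_cst]
  have h1 : contract ℓ (cst (c ^ ℓ)) = cst (c ^ ℓ) := by
    conv_lhs => rw [← Fermat.Agent.SS.Vq_cst ℓ (c ^ ℓ)]
    exact Fermat.Agent.ES.contract_Vq ℓ _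
  rw [h1, cst, cst, cst, ← map_mul, pow_succ']

variable {x : LaurentSeries Qb} {r : LaurentSeries (kA A)}

/-- **(J1)** -/
theorem RedTo.heckeSer (hp : p.Prime) (hA : A.LiesOverPrime p) (hℓ : ℓ.Prime) (hℓp : ℓ ≠ p)
    (h : RedTo A x r) : RedTo A (heckeSer ℓ x) (heckeSer ℓ r) := by
  obtain ⟨y₁, y₂, h0, h1, h2⟩ := h
  obtain ⟨ζ, hζ⟩ := Fermat.Agent.ES.exists_primitiveRoot_Qb ℓ
  obtain ⟨ξ, hξ⟩ := exists_primitiveRoot_kA hp hA hℓ hℓp
  have hb := bijective_restrict_res hp hA hℓ hℓp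
  refine ⟨Fermat.Agent.ES.heckeSer ℓ y₁, Fermat.Agent.ES.heckeSer ℓ y₂, ?_, ?_, ?_⟩
  · rw [Fermat.Agent.ES.coeffMap_heckeSer (resA A) ℓ hb]
    exact heckeSer_ne_zero hξ h0
  · rw [Fermat.Agent.ES.coeffMap_subtype_heckeSer, Fermat.Agent.ES.coeffMap_subtype_heckeSer,
      ← Fermat.Agent.ES.heckeSer_mul ℓ hζ, h1]
  · rw [Fermat.Agent.ES.coeffMap_heckeSer (resA A) ℓ hb,
      Fermat.Agent.ES.coeffMap_heckeSer (resA A) ℓ hb, ← Fermat.Agent.ES.heckeSer_mul ℓ hξ, h2]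

/-- **(J1)**, up to constants. -/
theorem RedUp.heckeSer (hp : p.Prime) (hA : A.LiesOverPrime p) (hℓ : ℓ.Prime) (hℓp : ℓ ≠ p)
    (h : RedUp A x r) : RedUp A (heckeSer ℓ x) (heckeSer ℓ r) := by
  obtain ⟨c, hc, h⟩ := h
  obtain ⟨ζ, hζ⟩ := Fermat.Agent.ES.exists_primitiveRoot_Qb ℓ
  refine ⟨c ^ (ℓ + 1), pow_ne_zero _ hc, (RedTo.heckeSer hp hA hℓ hℓp h).congr ?_ rfl⟩
  rw [Fermat.Agent.ES.heckeSer_mul ℓ hζ, heckeSer_cst]

end

end Fermat.Agent.S44.Eis
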