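import Fermat.Agent.SS.Formal.RedUp
import Fermat.Agent.ES.B.Pivot

/-!
# S44 / Eis / Scale : Gauss scaling of `q`-series with coefficients in a finitely generated module over a noetherian subring `R ≤ A`

Generalisation of `ES/B/Pivot.lean` (`exists_max`, `FGCoeff`, `exists_scale`) from `ℤ` to a noetherian subring `R` of `ℚ̄` contained in `A`
(application: `R = A ∩ K₀`, a discrete valuation ring by `ESide.vg`).

PROOFS: copy `ES/B/Pivot.lean` l. 26-165, replacing `Submodule ℤ` by `Submodule R` (`Nsub y := {z ∈ M | z / y ∈ A}` is an `R`-submodule because `R ≤ A`).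
* `FGC.of_coeff_mem` : `M := Submodule.span R {1}`.
* `FGC.of_FGCoeff` : `M' := Submodule.span R (M : Set Qb)`; `M = span ℤ s` gives `M' = span R s`.
* `exists_frac` : `f = P(j_d) / Q(j_d)` (`S24.exists_phiF_div`, as in the proof of `ES.exists_integral_fraction`), `Pivot.FGCoeff.aeval`.
* `redUp_of_fgc` : `exists_scale'`: `a : LaurentSeries A`, `ι a = cst c * x`, `ā ≠ 0`: `RedTo A (cst c * x) ā` with `y₁ = a`, `y₂ = 1`.
* `redUp_sum` : choose `e i = a i / b i` (`exists_frac`; for `e i = 0` take `0 / 1`), `b := ∏ b i ≠ 0`, `Y₁ = a' / b'`; then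
  `kk * (b * a'^(p-1)) = ∑ (a i * ∏_{j ≠ i} b j) * (Y₁ t)^i * b'^i * a'^(p-1-i)` is `FGC` and `≠ 0`; `b * a'^(p-1)` is `FGC`, `≠ 0`;
  `redUp_of_fgc` for both, `RedUp.mul`, `RedUp.inv`.
-/

set_option autoImplicit false

open AlgebraicCurve ModularCurve

namespace Fermat.Agent.S44.Eis

open Fermat.Agent.ES (Qb FF kA)
open Fermat.Agent.SS (RedTo RedUp cst cstk)

noncomputable section

variable (R : Subring Qb)

/-- the coefficients lie in a finitely generated `R`-submodule of `ℚ̄`. -/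
def FGC (x : LaurentSeries Qb) : Prop :=
  ∃ N : Submodule R Qb, N.FG ∧ ∀ n, x.coeff n ∈ N

variable {R}

theorem FGC.add {x y : LaurentSeries Qb} (hx : FGC R x) (hy : FGC R y) : FGC R (x + y) := by
  obtain ⟨M₁, h₁, hx⟩ := hx
  obtain ⟨M₂, h₂, hy⟩ := hy
  refine ⟨M₁ ⊔ M₂, h₁.sup h₂, fun n => ?_⟩
  rw [HahnSeries.coeff_add]
  exact add_mem (Submodule.mem_sup_left (hx n)) (Submodule.mem_sup_right (hy n))

theorem FGC.mul {x y : LaurentSeries Qb} (hx : FGC R x) (hy : FGC R y) : FGC R (x * y) := by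
  obtain ⟨M₁, h₁, hx⟩ := hx
  obtain ⟨M₂, h₂, hy⟩ := hy
  refine ⟨M₁ * M₂, h₁.mul h₂, fun n => ?_⟩
  rw [HahnSeries.coeff_mul]
  exact sum_mem fun ij _ => Submodule.mul_mem_mul (hx _) (hy _)

theorem FGC.one : FGC R 1 := by
  refine ⟨Submodule.span R {1}, Submodule.fg_span_singleton 1, fun n => ?_⟩
  rw [HahnSeries.coeff_one]
  split_ifs
  · exact Submodule.mem_span_singleton_self 1
  · exact zero_mem _

theorem FGC.pow {x : LaurentSeries Qb} (hx : FGC R x) (n : ℕ) : FGC R (x ^ n) := by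
  induction n with
  | zero => rw [pow_zero]; exact FGC.one
  | succ n ih => rw [pow_succ]; exact ih.mul hx

theorem FGC.sum {ι : Type*} (s : Finset ι) (x : ι → LaurentSeries Qb) (h : ∀ i ∈ s, FGC R (x i)) :
    FGC R (∑ i ∈ s, x i) := by
  classical
  induction s using Finset.induction_on with
  | empty =>
    rw [Finset.sum_empty]
    exact ⟨⊥, Submodule.fg_bot, fun n => by rw [HahnSeries.coeff_zero]; exact zero_mem _⟩
  | insert a s ha ih =>
    rw [Finset.sum_insert ha]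
    exact (h a (Finset.mem_insert_self a s)).add
      (ih fun i hi => h i (Finset.mem_insert_of_mem hi))

theorem FGC.prod {ι : Type*} (s : Finset ι) (x : ι → LaurentSeries Qb) (h : ∀ i ∈ s, FGC R (x i)) :
    FGC R (∏ i ∈ s, x i) := by
  classical
  induction s using Finset.induction_on with
  | empty =>
    rw [Finset.prod_empty]
    exact FGC.one
  | insert a s ha ih =>
    rw [Finset.prod_insert ha]
    exact (h a (Finset.mem_insert_self a s)).mul
      (ih fun i hi => h i (Finset.mem_insert_of_mem hi))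

theorem FGC.of_coeff_mem {x : LaurentSeries Qb} (h : ∀ n, x.coeff n ∈ R) : FGC R x := by
  refine ⟨Submodule.span R {1}, Submodule.fg_span_singleton 1, fun n => ?_⟩
  rw [Submodule.mem_span_singleton]
  refine ⟨⟨x.coeff n, h n⟩, ?_⟩
  rw [Subring.smul_def, smul_eq_mul, mul_one]

theorem FGC.of_FGCoeff {x : LaurentSeries Qb} (h : Fermat.Agent.ES.Pivot.FGCoeff x) : FGC R x := by
  obtain ⟨M, ⟨s, hs⟩, hx⟩ := h
  refine ⟨Submodule.span R (s : Set Qb), ⟨s, rfl⟩, fun n => ?_⟩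
  have h1 : x.coeff n ∈ Submodule.span ℤ (s : Set Qb) := hs ▸ hx n
  refine Submodule.span_induction (p := fun y _ => y ∈ Submodule.span R (s : Set Qb))
    (fun y hy => Submodule.subset_span hy) (zero_mem _) (fun y z _ _ hy hz => add_mem hy hz)
    (fun c y _ hy => zsmul_mem hy c) h1

/-- every element of the function field is a quotient of two series with coefficients in f.g. `ℤ`-modules. -/
theorem exists_frac {N : ℕ} [NeZero N] (f : FF N) :
    ∃ a b : LaurentSeries Qb, Fermat.Agent.ES.Pivot.FGCoeff a ∧ Fermat.Agent.ES.Pivot.FGCoeff b ∧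
      b ≠ 0 ∧ (f : LaurentSeries Qb) * b = a := by
  obtain ⟨P, Q, hQ, hfPQ⟩ := Fermat.Agent.S24.exists_phiF_div N f
  refine ⟨((Fermat.Agent.S24.phiF N P : FF N) : LaurentSeries Qb),
    ((Fermat.Agent.S24.phiF N Q : FF N) : LaurentSeries Qb), ?_, ?_,
    fun h => hQ (Subtype.ext h), ?_⟩
  · rw [Fermat.Agent.S24.Gen.coe_phiF]
    exact Fermat.Agent.ES.Pivot.FGCoeff.aeval N P
  · rw [Fermat.Agent.S24.Gen.coe_phiF]
    exact Fermat.Agent.ES.Pivot.FGCoeff.aeval N Q
  · have h : f * Fermat.Agent.S24.phiF N Q = Fermat.Agent.S24.phiF N P := by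
      rw [hfPQ, div_mul_cancel₀ _ hQ]
    exact congrArg Subtype.val h

theorem exists_max' [IsNoetherianRing R] (A : ValuationSubring Qb) (hRA : ∀ x ∈ R, x ∈ A)
    (N : Submodule R Qb) (hN : N.FG) (S : Set Qb) (hS : S.Nonempty) (hSN : ∀ y ∈ S, y ∈ N)
    (h0 : ∀ y ∈ S, y ≠ 0) : ∃ y₀ ∈ S, ∀ y ∈ S, y / y₀ ∈ A := by
  classical
  have : IsNoetherian R N := isNoetherian_of_fg_of_noetherian N hN
  let Nsub : Qb → Submodule R N := fun y =>
    { carrier := {z | (z : Qb) / y ∈ A}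
      add_mem' := fun {a b} ha hb => by
        show ((a + b : N) : Qb) / y ∈ A
        rw [Submodule.coe_add, add_div]
        exact A.add_mem _ _ ha hb
      zero_mem' := by
        show ((0 : N) : Qb) / y ∈ A
        rw [Submodule.coe_zero, zero_div]
        exact A.zero_mem
      smul_mem' := fun c a ha => by
        show ((c • a : N) : Qb) / y ∈ A
        rw [Submodule.coe_smul, Subring.smul_def, smul_eq_mul, mul_div_assoc]
        exact A.mul_mem _ _ (hRA _ c.2) ha }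
  have hmax := (set_has_maximal_iff_noetherian (R := R) (M := N)).mpr inferInstance
    (Nsub '' S) (hS.image _)
  obtain ⟨_, ⟨y₀, hy₀, rfl⟩, hmax⟩ := hmax
  refine ⟨y₀, hy₀, fun y hy => ?_⟩
  rcases A.mem_or_inv_mem (y / y₀) with h | h
  · exact h
  · rw [inv_div] at h
    have hle : Nsub y₀ ≤ Nsub y := by
      intro z hz
      show (z : Qb) / y ∈ A
      have hz' : (z : Qb) / y₀ ∈ A := hz
      have : (z : Qb) / y = (z : Qb) / y₀ * (y₀ / y) := by
        rw [div_mul_div_cancel₀ (h0 y₀ hy₀)]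
      rw [this]
      exact A.mul_mem _ _ hz' h
    have hnlt := hmax (Nsub y) ⟨y, hy, rfl⟩
    have heq : Nsub y₀ = Nsub y := by
      by_contra hne
      exact hnlt (lt_of_le_of_ne hle hne)
    have hmem : (⟨y, hSN y hy⟩ : N) ∈ Nsub y := by
      show y / y ∈ A
      rw [div_self (h0 y hy)]
      exact A.one_mem
    rw [← heq] at hmem
    exact hmem

theorem exists_scale' [IsNoetherianRing R] (A : ValuationSubring Qb) (hRA : ∀ x ∈ R, x ∈ A)
    (x : LaurentSeries Qb) (hx : FGC R x) (hx0 : x ≠ 0) :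
    ∃ (c : Qb) (a : LaurentSeries A), c ≠ 0 ∧
      coeffMap A.subtype a = algebraMap Qb (LaurentSeries Qb) c * x ∧
      coeffMap (IsLocalRing.residue A) a ≠ 0 := by
  classical
  obtain ⟨M, hM, hxM⟩ := hx
  obtain ⟨n₁, hn₁⟩ : ∃ n, x.coeff n ≠ 0 := by
    by_contra hcon
    push Not at hcon
    exact hx0 (HahnSeries.ext (funext hcon))
  obtain ⟨y₀, ⟨⟨n₀, rfl⟩, hy₀⟩, hmax⟩ := exists_max' A hRA M hM
    {y | (∃ n, x.coeff n = y) ∧ y ≠ 0}
    ⟨x.coeff n₁, ⟨n₁, rfl⟩, hn₁⟩ (by rintro _ ⟨⟨n, rfl⟩, -⟩; exact hxM n) (fun y hy => hy.2)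
  have hmem : ∀ n, x.coeff n / x.coeff n₀ ∈ A := by
    intro n
    by_cases hn : x.coeff n = 0
    · rw [hn, zero_div]
      exact A.zero_mem
    · exact hmax _ ⟨⟨n, rfl⟩, hn⟩
  let a : LaurentSeries A :=
    { coeff := fun n => ⟨x.coeff n / x.coeff n₀, hmem n⟩
      isPWO_support' := by
        refine x.isPWO_support.mono ?_
        intro n hn hn0
        apply hn
        apply Subtype.ext
        show x.coeff n / x.coeff n₀ = 0
        rw [hn0, zero_div] }
  refine ⟨(x.coeff n₀)⁻¹, a, inv_ne_zero hy₀, ?_, ?_⟩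
  · ext n
    rw [coeffMap_coeff, S24.Gen.coeff_algebraMap_mul]
    show x.coeff n / x.coeff n₀ = _
    rw [div_eq_inv_mul]
  · intro h
    have h1 := congrArg (fun s => s.coeff n₀) h
    simp only [coeffMap_coeff, HahnSeries.coeff_zero] at h1
    have h2 : a.coeff n₀ = 1 := by
      apply Subtype.ext
      show x.coeff n₀ / x.coeff n₀ = 1
      exact div_self hy₀
    rw [h2, map_one] at h1
    exact one_ne_zero h1

theorem redUp_of_fgc [IsNoetherianRing R] (A : ValuationSubring Qb) (hRA : ∀ x ∈ R, x ∈ A)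
    (x : LaurentSeries Qb) (hx : FGC R x) (hx0 : x ≠ 0) :
    ∃ κ : LaurentSeries (kA A), κ ≠ 0 ∧ RedUp A x κ := by
  obtain ⟨c, a, hc, ha, ha0⟩ := exists_scale' A hRA x hx hx0
  refine ⟨coeffMap (IsLocalRing.residue A) a, ha0, c, hc, a, 1, ?_, ?_, ?_⟩
  · rw [map_one]
    exact one_ne_zero
  · rw [map_one, mul_one, ha]
  · rw [map_one, mul_one]

/-- **(SCALE)** -/
theorem redUp_sum [IsNoetherianRing R] (A : ValuationSubring Qb) (hRA : ∀ x ∈ R, x ∈ A)
    {N : ℕ} [NeZero N] (p : ℕ) (e : ℕ → FF N) (t : LaurentSeries Qb) (Y₁ : FF N) (hY₁ : Y₁ ≠ 0)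
    (ht : ∀ n, ((Y₁ : LaurentSeries Qb) * t).coeff n ∈ R)
    (h0 : ∑ i ∈ Finset.range p, (e i : LaurentSeries Qb) * t ^ i ≠ 0) :
    ∃ κ : LaurentSeries (kA A), κ ≠ 0 ∧
      RedUp A (∑ i ∈ Finset.range p, (e i : LaurentSeries Qb) * t ^ i) κ := by
  classical
  choose a b ha hb hb0 hab using fun i : ℕ => exists_frac (e i)
  obtain ⟨a', b', ha', hb', hb0', hab'⟩ := exists_frac Y₁
  have hY : (Y₁ : LaurentSeries Qb) ≠ 0 := fun h => hY₁ (Subtype.ext h)
  have ha0' : a' ≠ 0 := by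
    rw [← hab']
    exact mul_ne_zero hY hb0'
  set B : LaurentSeries Qb := ∏ i ∈ Finset.range p, b i with hB
  have hB0 : B ≠ 0 := Finset.prod_ne_zero_iff.2 fun i _ => hb0 i
  set D : LaurentSeries Qb := B * a' ^ p with hD
  have hD0 : D ≠ 0 := mul_ne_zero hB0 (pow_ne_zero _ ha0')
  have hDfg : FGC R D :=
    (FGC.prod _ _ fun i _ => FGC.of_FGCoeff (hb i)).mul ((FGC.of_FGCoeff ha').pow p)
  have hkey : (∑ i ∈ Finset.range p, (e i : LaurentSeries Qb) * t ^ i) * D
      = ∑ i ∈ Finset.range p, (a i * ∏ j ∈ (Finset.range p).erase i, b j) *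
          ((((Y₁ : LaurentSeries Qb) * t) ^ i * b' ^ i) * a' ^ (p - i)) := by
    rw [Finset.sum_mul]
    refine Finset.sum_congr rfl fun i hi => ?_
    have hip : i ≤ p := (Finset.mem_range.1 hi).le
    have h1 : B = b i * ∏ j ∈ (Finset.range p).erase i, b j :=
      (Finset.mul_prod_erase _ _ hi).symm
    have h2 : a' ^ p = a' ^ i * a' ^ (p - i) := by
      rw [← pow_add, Nat.add_sub_cancel' hip]
    rw [hD, h1, h2, ← hab i, ← hab', mul_pow, mul_pow]
    ring
  have hNfg : FGC R ((∑ i ∈ Finset.range p, (e i : LaurentSeries Qb) * t ^ i) * D) := by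
    rw [hkey]
    refine FGC.sum _ _ fun i _ => ?_
    exact ((FGC.of_FGCoeff (ha i)).mul (FGC.prod _ _ fun j _ => FGC.of_FGCoeff (hb j))).mul
      ((((FGC.of_coeff_mem ht).pow i).mul ((FGC.of_FGCoeff hb').pow i)).mul
        ((FGC.of_FGCoeff ha').pow (p - i)))
  obtain ⟨κ₁, hκ₁, h₁⟩ := redUp_of_fgc A hRA _ hNfg (mul_ne_zero h0 hD0)
  obtain ⟨κ₂, hκ₂, h₂⟩ := redUp_of_fgc A hRA _ hDfg hD0
  refine ⟨κ₁ * κ₂⁻¹, mul_ne_zero hκ₁ (inv_ne_zero hκ₂), (h₁.mul (h₂.inv hκ₂)).congr ?_ rfl⟩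
  rw [mul_assoc, mul_inv_cancel₀ hD0, mul_one]

end

end Fermat.Agent.S44.Eis
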