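import Fermat.Agent.S44.Eis.Basic
import Fermat.Agent.S44.XD.Field
import Fermat.Agent.S44.ResDeg.Main
import Fermat.Agent.S33.Good.Sep

/-!
# S44 / Eis / Sep : (SEP) for `Ft = resF M A`, and the last step of CONST (D): from `f' = f * kk^p` back to `f`

`kk` is only a `q`-series (an element of the cover `F' = F(t)`), Gauss-scalable with reduction `κ ∈ k((q))`; `κ` is NOT assumed to lie in `Ft`.

PROOFS.
* `sep_resF` : `S33.pth_power p k₀ E L D x` with `κ := LaurentSeries (kA A)`, `k₀ := (HahnSeries.C).fieldRange`,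
  `E := Subfield.closure (k₀ ∪ {jqModC k})`, `L := (resF M A).toSubfield`, `D := S33.kerD (S33.Calc.theta k)`, `x := jqModC k`: copy the end of the
  proof of `S33.Setup.sep` (`S33/Good/Sep.lean`): `hperf` (`kA A` is algebraically closed, hence perfect), `hD = Sep_der_pow_p`,
  `hind = indep_of_derivation … (theta_j_ne _)`.  `hEL`: constants (`algebraMap_mem`, `C_eq_algebraMap`) and `jqModC_mem_resF`.
  `hfin`: `FiniteDimensional k⟮jt⟯ (resF M A)` by `S37.Red.VFF.finiteDimensional_res (gaussVFF M A) hred _` exactly as in `S37.Mod.instFF1ResF`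
  (or `S26.finiteDimensional_adjoin_of_transcendental`), take a basis (`Module.finBasis`), and check that the elements of `k⟮jt⟯`, seen in `k((q))`, lie in `E`
  (`IntermediateField.adjoin_induction` / `IntermediateField.mem_adjoin_simple_iff`: quotients of polynomials in `j̄`).
* `mem_resF_of_pow` : `θ (κ^p) = 0` (`S33.Sep_der_pow_p`), `sep_resF`: `κ^p = t^p`, `frobenius` is injective on the field `k((q))` of char. `p`
  (`CharP`: `charP_of_injective_ringHom HahnSeries.C_injective p`, `ES.charP_kA`).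
* `XD_mem_resF` : `IsI (M * p) A (XD A p)` (`coeffMap_XD`, `XD_mem`), `RedRel.of_isI`, `ResDeg.resF_mul_le`.
* `nc_back` : `⟨φ, hφ, hφ0, hφm⟩ := hf`; `RedUp ((f * kk^p)^T * XD^(-c)) ((φ * κ^p)^T * X̄^(-c))` (`RedUp.mul`, `RedUp.zpow`, `RedUp.pow`, `XD.redUp_XD`);
  `NC.nck` gives `NCk` of it; in particular it lies in `Ft`; divide by `φ^T * X̄^(-c) ∈ Ftˣ`: `(κ^T)^p ∈ Ft` (`zpow` algebra), so `κ^T ∈ Ft` (`mem_resF_of_pow`),
  `NCk ((κ^T)^p)` (`NCk.ppow`), `NCk.mul`, `NCk.inv`.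
-/

set_option autoImplicit false

open AlgebraicCurve ModularCurve

namespace Fermat.Agent.S44.Eis

open Fermat.Agent.ES (Qb FF)
open Fermat.Agent.S37.Mod (kA resF)
open Fermat.Agent.SS (RedTo RedUp cst cstk)
open Fermat.Agent.S44.XD (XD)

noncomputable section

variable {M : ℕ} [NeZero M] {A : ValuationSubring Qb} {p : ℕ}

/-- (helper) `j̄` is transcendental. -/
theorem Sep_transcendental_jt : Transcendental (kA A) (jt M A) := by
  intro h
  have h2 := (IntermediateField.isAlgebraic_iff).mp h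
  exact Fermat.Agent.S28.transcendental_jqModC (kA A) h2

/-- (helper) the elements of `k(j̄) ⊆ Ft`, seen in `k((q))`, lie in the subfield generated by the constants and `j̄`. -/
theorem Sep_mem_closure (z : resF M A) (hz : z ∈ IntermediateField.adjoin (kA A) {jt M A}) :
    (z : LaurentSeries (kA A)) ∈ Subfield.closure
      (((HahnSeries.C : kA A →+* LaurentSeries (kA A)).fieldRange : Set (LaurentSeries (kA A)))
        ∪ {jqModC (kA A)}) := by
  induction hz using IntermediateField.adjoin_induction with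
  | mem x hx =>
    rw [Set.mem_singleton_iff] at hx
    rw [hx]
    exact Subfield.subset_closure (Or.inr rfl)
  | algebraMap a =>
    exact Subfield.subset_closure (Or.inl ⟨a, Fermat.Agent.S28.C_eq_algebraMap a⟩)
  | add x y _ _ hx hy => exact add_mem hx hy
  | inv x _ hx => exact inv_mem hx
  | mul x y _ _ hx hy => exact mul_mem hx hy

set_option synthInstance.maxHeartbeats 1000000 in
/-- **(SEP)** for `resF M A`. -/
theorem sep_resF (hp : p.Prime) (hA : A.LiesOverPrime p) {r : LaurentSeries (kA A)}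
    (hr : r ∈ resF M A) (hth : Fermat.Agent.S33.Calc.theta (kA A) r = 0) :
    ∃ t ∈ resF M A, t ^ p = r := by
  have : Fact p.Prime := ⟨hp⟩
  have : CharP (kA A) p := Fermat.Agent.S37.Mod.charP_kA hp hA
  have : CharP (LaurentSeries (kA A)) p :=
    charP_of_injective_ringHom (HahnSeries.C_injective (Γ := ℤ) (R := kA A)) p
  have : PerfectRing (kA A) p := PerfectField.toPerfectRing p
  have hfd : FiniteDimensional (IntermediateField.adjoin (kA A) {jt M A}) (resF M A) :=
    Fermat.Agent.S26.finiteDimensional_adjoin_of_transcendental Sep_transcendental_jt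
  refine Fermat.Agent.S33.pth_power p
    (HahnSeries.C : kA A →+* LaurentSeries (kA A)).fieldRange
    (Subfield.closure
      (((HahnSeries.C : kA A →+* LaurentSeries (kA A)).fieldRange : Set (LaurentSeries (kA A)))
        ∪ {jqModC (kA A)}))
    (resF M A).toSubfield
    (Fermat.Agent.S33.kerD (Fermat.Agent.S33.Calc.theta (kA A))) (jqModC (kA A))
    ?_ rfl ?_
    (fun y => Fermat.Agent.S33.Sep_der_pow_p p (Fermat.Agent.S33.Calc.theta (kA A)) y)
    (fun c hc h => Fermat.Agent.S33.indep_of_derivation p (Fermat.Agent.S33.Calc.theta (kA A)) _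
      (Fermat.Agent.S33.theta_j_ne _) c hc h)
    ?_ r hr hth
  · rintro _ ⟨a, rfl⟩
    obtain ⟨b, hb⟩ := surjective_frobenius (kA A) p a
    exact ⟨HahnSeries.C b, ⟨b, rfl⟩, by rw [← map_pow, ← hb, frobenius_def]⟩
  · rw [Subfield.closure_le]
    rintro x (⟨a, rfl⟩ | hx)
    · rw [Fermat.Agent.S28.C_eq_algebraMap]
      exact (resF M A).algebraMap_mem a
    · rw [Set.mem_singleton_iff] at hx
      rw [hx]
      exact jqModC_mem_resF M A
  · let b := Module.finBasis (IntermediateField.adjoin (kA A) {jt M A}) (resF M A)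
    refine ⟨_, fun i => ((b i : resF M A) : LaurentSeries (kA A)), fun i => (b i).2, ?_⟩
    intro y hy
    refine ⟨fun i => (((b.repr ⟨y, hy⟩ i : IntermediateField.adjoin (kA A) {jt M A}) : resF M A) :
      LaurentSeries (kA A)), fun i => Sep_mem_closure _ (b.repr ⟨y, hy⟩ i).2, ?_⟩
    have h1 := congrArg (fun w : resF M A => (w : LaurentSeries (kA A))) (b.sum_repr ⟨y, hy⟩)
    exact h1.symm.trans (map_sum (resF M A).val _ Finset.univ)

theorem mem_resF_of_pow (hp : p.Prime) (hA : A.LiesOverPrime p) {κ : LaurentSeries (kA A)}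
    (h : κ ^ p ∈ resF M A) : κ ∈ resF M A := by
  have : Fact p.Prime := ⟨hp⟩
  have : CharP (kA A) p := Fermat.Agent.S37.Mod.charP_kA hp hA
  have : CharP (LaurentSeries (kA A)) p :=
    charP_of_injective_ringHom (HahnSeries.C_injective (Γ := ℤ) (R := kA A)) p
  obtain ⟨t, ht, htp⟩ := sep_resF hp hA h
    (Fermat.Agent.S33.Sep_der_pow_p p (Fermat.Agent.S33.Calc.theta (kA A)) κ)
  have h1 : t = κ := frobenius_inj (LaurentSeries (kA A)) p htp
  rwa [← h1]

theorem XD_mem_resF [NeZero p] (hp : p.Prime) (hpM : ¬ p ∣ M) (hA : A.LiesOverPrime p) :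
    XD (kA A) p ∈ resF M A := by
  have : Fact p.Prime := ⟨hp⟩
  have hI : Fermat.Agent.S37.Mod.IsI (M * p) A (XD A p) := by
    rw [Fermat.Agent.S37.Mod.IsI, Fermat.Agent.S44.XD.coeffMap_XD]
    exact Fermat.Agent.S44.XD.XD_mem M p
  have hr := Fermat.Agent.S37.Mod.RedRel.of_isI hI
  have h3 : Fermat.Agent.S37.Mod.rd A (XD A p) = XD (kA A) p :=
    Fermat.Agent.S44.XD.coeffMap_XD p _
  rw [h3] at hr
  exact Fermat.Agent.S44.ResDeg.resF_mul_le M p hp hpM A hA ⟨_, hr⟩

/-- **(BACK)** -/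
theorem nc_back [NeZero p] (hp : p.Prime) (hpM : ¬ p ∣ M) (hA : A.LiesOverPrime p)
    {f kk : LaurentSeries Qb} {κ : LaurentSeries (kA A)} {T c : ℤ}
    (hf : HasRed M A f) (hkk : RedUp A kk κ) (hκ : κ ≠ 0)
    (h : NC M A p ((f * kk ^ p) ^ T * XD Qb p ^ (-c))) :
    NC M A p (f ^ T * XD Qb p ^ (-c)) := by
  obtain ⟨φ, hφ, hφ0, hφm⟩ := hf
  have hX0 : XD (kA A) p ≠ 0 := Fermat.Agent.S44.XD.XD_ne_zero p
  have hXm : XD (kA A) p ∈ resF M A := XD_mem_resF hp hpM hA
  have hXr : RedUp A (XD Qb p) (XD (kA A) p) := Fermat.Agent.S44.XD.redUp_XD p A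
  have h1 : RedUp A ((f * kk ^ p) ^ T * XD Qb p ^ (-c))
      ((φ * κ ^ p) ^ T * XD (kA A) p ^ (-c)) :=
    (RedUp.zpow (hφ.mul (hkk.pow p)) (mul_ne_zero hφ0 (pow_ne_zero p hκ)) T).mul
      (RedUp.zpow hXr hX0 (-c))
  have h2 : NCk M A p ((φ * κ ^ p) ^ T * XD (kA A) p ^ (-c)) :=
    h.nck h1 (mul_ne_zero (zpow_ne_zero T (mul_ne_zero hφ0 (pow_ne_zero p hκ)))
      (zpow_ne_zero _ hX0))
  have hw0 : φ ^ T * XD (kA A) p ^ (-c) ≠ 0 :=
    mul_ne_zero (zpow_ne_zero T hφ0) (zpow_ne_zero _ hX0)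
  have hwm : φ ^ T * XD (kA A) p ^ (-c) ∈ resF M A := mul_mem (zpow_mem hφm T) (zpow_mem hXm _)
  have hκT0 : κ ^ T ≠ 0 := zpow_ne_zero T hκ
  have e1 : (φ * κ ^ p) ^ T * XD (kA A) p ^ (-c) =
      φ ^ T * XD (kA A) p ^ (-c) * (κ ^ T) ^ p := by
    have e2 : (κ ^ p) ^ T = (κ ^ T) ^ p := by
      rw [← zpow_natCast, ← zpow_natCast, ← zpow_mul, ← zpow_mul, mul_comm]
    rw [mul_zpow, e2]
    ring
  have hpm : (κ ^ T) ^ p ∈ resF M A := by
    have e3 : (κ ^ T) ^ p =
        (φ * κ ^ p) ^ T * XD (kA A) p ^ (-c) * (φ ^ T * XD (kA A) p ^ (-c))⁻¹ := by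
      rw [e1, mul_comm (φ ^ T * XD (kA A) p ^ (-c)), mul_inv_cancel_right₀ hw0]
    rw [e3]
    exact mul_mem h2.mem (inv_mem hwm)
  have hκm : κ ^ T ∈ resF M A := mem_resF_of_pow hp hA hpm
  have h3 : NCk M A p ((κ ^ T) ^ p) := NCk.ppow hκm hκT0
  have h4 : NCk M A p (φ ^ T * XD (kA A) p ^ (-c)) := by
    have h5 := h2.mul h3.inv
    rwa [e1, mul_inv_cancel_right₀ (pow_ne_zero p hκT0)] at h5
  exact ⟨_, (RedUp.zpow hφ hφ0 T).mul (RedUp.zpow hXr hX0 (-c)), h4⟩

end

end Fermat.Agent.S44.Eis
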