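import Fermat.Agent.S44.Old.Mod
import Fermat.Agent.S28.IntTower

/-!
# S44 / Eis / J2 : `NCk` is stable under `heckeSer ℓ`

`div (heckeSer ℓ φ) = T̄_ℓ (div φ)`, `T̄_ℓ` additive on `Div(Ft)`, and `T̄_ℓ` of a cuspidal divisor is cuspidal.
Assembly from helper45's `Old/Corr.lean` (`dvd_rD_correspondence`, `ord_map`, `eT_pos`) and `Old/Mod.lean`
(`exists_compat_alpha`, `exists_compat_beta`, `red_heckeF`); the cusps are stable because `j(q)` and `j(q^ℓ)` are
mutually integral (`S28.isIntegralElem_V_of_dvd`).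
-/

set_option autoImplicit false

open AlgebraicCurve ModularCurve

namespace Fermat.Agent.S44.Eis

open Fermat.Agent.ES (Qb FF heckeSer heckeF Vq heckeBetaBarIntegral heckeAlphaBarIntegral)
open Fermat.Agent.S37.Mod (kA resF gaussVFF xQ xk)
open Fermat.Agent.S19.Geo0 (Good rP rD rD_divisorOf)
open Fermat.Agent.S26 (divisorOf divisorOf_apply)
open Fermat.Agent.S44.Old

noncomputable section

/-- integrality over `k[u]` and regularity at a place. -/
theorem J2_ord_nonneg {k : Type*} [Field k] (L : IntermediateField k (LaurentSeries k))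
    (u v : L) (h : (Fermat.Agent.S28.evAt (u : LaurentSeries k)).IsIntegralElem (v : LaurentSeries k))
    (Q : Place k L) (hu : 0 ≤ Q.ord u) : 0 ≤ Q.ord v := by
  obtain ⟨P, hP, h0⟩ := h
  have hu' : u ∈ Q.toValuationSubring := Fermat.Agent.S24.FF.mem_of_ord_nonneg Q hu
  let c : k →+* Q.toValuationSubring :=
    { toFun := fun a => ⟨algebraMap k L a, Q.algebraMap_mem' a⟩
      map_one' := Subtype.ext (map_one _)
      map_mul' := fun a b => Subtype.ext (map_mul _ a b)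
      map_zero' := Subtype.ext (map_zero _)
      map_add' := fun a b => Subtype.ext (map_add _ a b) }
  let ι : Polynomial k →+* Q.toValuationSubring := Polynomial.eval₂RingHom c ⟨u, hu'⟩
  have hint : IsIntegral Q.toValuationSubring v := by
    refine ⟨P.map ι, hP.map ι, ?_⟩
    rw [Polynomial.eval₂_map]
    apply Subtype.val_injective
    have hcomp : (L.val.toRingHom).comp ((algebraMap Q.toValuationSubring L).comp ι)
        = Fermat.Agent.S28.evAt (u : LaurentSeries k) := by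
      apply Polynomial.ringHom_ext
      · intro a
        simp [ι, c, Fermat.Agent.S28.evAt]
        show HahnSeries.ofPowerSeries ℤ k (algebraMap k (PowerSeries k) a) = _
        rw [PowerSeries.algebraMap_apply, Algebra.algebraMap_self, RingHom.id_apply,
          HahnSeries.ofPowerSeries_C]
        rfl
      · simp [ι, c, Fermat.Agent.S28.evAt]
    have := Polynomial.hom_eval₂ P ((algebraMap Q.toValuationSubring L).comp ι) L.val.toRingHom v
    rw [hcomp] at this
    exact this.trans h0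
  obtain ⟨y, hy⟩ := IsIntegrallyClosed.isIntegral_iff.mp hint
  rw [← hy]
  exact Fermat.Agent.S24.FF.ord_nonneg_of_mem Q y.2

/-- **(J2)** -/
theorem NCk.heckeSer {M : ℕ} [NeZero M] {A : ValuationSubring Qb} {p ℓ : ℕ} [NeZero ℓ]
    (hp : p.Prime) (hp5 : 5 ≤ p) (hM : ¬ p ∣ M) (hA : A.LiesOverPrime p)
    (hℓ : ℓ.Prime) (hℓM : ¬ ℓ ∣ M * p) {r : LaurentSeries (kA A)} (h : NCk M A p r) :
    NCk M A p (heckeSer ℓ r) := by
  obtain ⟨hr, hr0, hdiv⟩ := h
  have hℓM' : ¬ ℓ ∣ M := fun h => hℓM (h.mul_right p)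
  have hℓp : ℓ ≠ p := by
    rintro rfl
    exact hℓM (dvd_mul_left _ _)
  have hMℓ : ¬ p ∣ M * ℓ := by
    intro h
    rcases (Nat.Prime.dvd_mul hp).1 h with h | h
    · exact hM h
    · exact hℓp ((Nat.prime_dvd_prime_iff_eq hp hℓ).1 h).symm
  obtain ⟨n, hx⟩ := exists_goodCoord M hp hp5 hM
  obtain ⟨n', hx'⟩ := exists_goodCoord (M * ℓ) hp hp5 hMℓ
  have hG := Fermat.Agent.S19.Geo0.Inst.good_goodCoord hp hx hA
  have hG' := Fermat.Agent.S19.Geo0.Inst.good_goodCoord hp hx' hA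
  obtain ⟨αt, hαt, hα⟩ := exists_compat_alpha hp hA hℓ hℓp hx hx'
  obtain ⟨βt, hβt, hβ⟩ := exists_compat_beta (ℓ := ℓ) hp hA hx hx'
  have := Fermat.Agent.S37.hasPrincipalDivisors_FF (M * ℓ)
  obtain ⟨f, hf⟩ := (gaussVFF M A).exists_lift ⟨r, hr⟩
  have hrt0 : (⟨r, hr⟩ : resF M A) ≠ 0 := fun h => hr0 (congrArg Subtype.val h)
  have hf0 : f ≠ 0 := hf.ne_zero hrt0
  obtain ⟨hr', hf'⟩ := red_heckeF hp hA hℓ hℓM' hℓp f _ hf
  obtain ⟨ζ', hζ'⟩ := exists_primitiveRoot_kA hp hA hℓ hℓp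
  have hr'0 : Fermat.Agent.ES.heckeSer ℓ r ≠ 0 := heckeSer_ne_zero hζ' hr0
  refine ⟨hr', hr'0, fun Q hQ => ?_⟩
  have hr't0 : (⟨Fermat.Agent.ES.heckeSer ℓ r, hr'⟩ : resF M A) ≠ 0 := fun h => hr'0 (congrArg Subtype.val h)
  have hcorr : Divisor.correspondence (heckeBetaBar Qb M ℓ) (heckeAlphaBar Qb M ℓ)
      (heckeBetaBarIntegral M ℓ) (heckeAlphaBarIntegral M ℓ) (divisorOf f)
      = divisorOf (heckeF M ℓ hℓ hℓM' f) := by
    ext P
    rw [Fermat.Agent.S37.correspondence_apply_of_ord ℓ hℓ hℓM' hf0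
      (fun Q => divisorOf_apply _ _) P, divisorOf_apply]
  have hj0 : jt M A ≠ 0 := by
    intro h0
    have h1 : jqModC (kA A) = 0 := congrArg Subtype.val h0
    exact Fermat.Agent.S28.transcendental_jqModC (kA A) (h1 ▸ isAlgebraic_zero)
  have hint := Fermat.Agent.S28.isIntegralElem_V_of_dvd (kA A) 1 ℓ (one_dvd ℓ)
  have e1 : Fermat.Agent.S28.V (kA A) 1 (Fermat.Agent.S28.J (kA A)) = jqModC (kA A) :=
    qExpand_one_apply _
  rw [e1] at hint
  have hC : ∀ Q' : Place (kA A) (resF (M * ℓ) A),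
      rPt hG hG' (heckeBetaBarIntegral M ℓ) Q' ∈ {Q : Place (kA A) (resF M A) | Q.ord (jt M A) < 0} ↔
      rPt hG hG' (heckeAlphaBarIntegral M ℓ) Q' ∈ {Q : Place (kA A) (resF M A) | Q.ord (jt M A) < 0} := by
    intro Q'
    have h1 := ord_map hG hG' hβ (heckeBetaBarIntegral M ℓ) hj0 Q'
    have h2 := ord_map hG hG' hα (heckeAlphaBarIntegral M ℓ) hj0 Q'
    have p1 := eT_pos hG hG' hβ (heckeBetaBarIntegral M ℓ) Q'
    have p2 := eT_pos hG hG' hα (heckeAlphaBarIntegral M ℓ) Q'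
    have h3 : 0 ≤ Q'.ord (βt (jt M A)) ↔ 0 ≤ Q'.ord (αt (jt M A)) := by
      constructor
      · intro h
        refine J2_ord_nonneg _ _ _ ?_ Q' h
        rw [hαt, hβt]
        exact hint.2
      · intro h
        refine J2_ord_nonneg _ _ _ ?_ Q' h
        rw [hαt, hβt]
        exact hint.1
    rw [h1, h2] at h3
    simp only [Set.mem_ofPred_eq]
    rw [← not_le, ← not_le, not_iff_not]
    rw [mul_nonneg_iff_of_pos_left p1, mul_nonneg_iff_of_pos_left p2] at h3
    exact h3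
  have key := dvd_rD_correspondence hG hG' hβ hα (heckeBetaBarIntegral M ℓ)
    (heckeAlphaBarIntegral M ℓ) {Q | Q.ord (jt M A) < 0} hC (p : ℤ) (E := divisorOf f) (by
      intro Q hQ
      rw [rD_divisorOf hG hf hrt0, divisorOf_apply]
      exact hdiv Q (not_lt.1 hQ)) Q (not_lt.2 hQ)
  rw [hcorr, rD_divisorOf hG hf' hr't0, divisorOf_apply] at key
  exact key

end
end Fermat.Agent.S44.Eis
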