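import Fermat.Agent.S44.Eis.Basic
import Fermat.Agent.S44.Eis.Red
import Fermat.Agent.S44.Eis.J2
import Fermat.Agent.S44.XD.Hecke

/-!
# S44 / Eis / Main : (T6) of the blueprint

`NC(f^T * XD^(-c))`, `heckeSer ℓ f = const * f^a * h^p`, `a ≢ ℓ + 1 mod p`, `p ∤ T`  ⟹  `NC(f)`.
-/

set_option autoImplicit false

open AlgebraicCurve ModularCurve

namespace Fermat.Agent.S44.Eis

open Fermat.Agent.ES (Qb FF heckeSer)
open Fermat.Agent.S37.Mod (kA resF)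
open Fermat.Agent.SS (RedTo RedUp cst cstk)
open Fermat.Agent.S44.XD (XD)

noncomputable section

variable {M : ℕ} [NeZero M] {A : ValuationSubring Qb} {p ℓ : ℕ} [NeZero ℓ] [NeZero p]

/-- `NC` is stable under the multiplicative Hecke operators: (J1) + (J2). -/
theorem NC.heckeSer (hp : p.Prime) (hp5 : 5 ≤ p) (hM : ¬ p ∣ M) (hA : A.LiesOverPrime p)
    (hℓ : ℓ.Prime) (hℓM : ¬ ℓ ∣ M * p) {u : LaurentSeries Qb} (h : NC M A p u) :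
    NC M A p (heckeSer ℓ u) := by
  obtain ⟨r, h1, h2⟩ := h
  have hℓp : ℓ ≠ p := by
    rintro rfl
    exact hℓM (dvd_mul_left _ _)
  exact ⟨_, RedUp.heckeSer hp hA hℓ hℓp h1, NCk.heckeSer hp hp5 hM hA hℓ hℓM h2⟩

/-- **(T6)**, first half. -/
theorem nc_zpow_of_eigen (hp : p.Prime) (hp5 : 5 ≤ p) (hM : ¬ p ∣ M) (hA : A.LiesOverPrime p)
    (hℓ : ℓ.Prime) (hℓM : ¬ ℓ ∣ M * p) {f h : LaurentSeries Qb} {T c a : ℤ} {c₀ : Qb}
    (hc₀ : c₀ ≠ 0) (hf0 : f ≠ 0) (hh : HasRed M A h)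
    (hNC : NC M A p (f ^ T * XD Qb p ^ (-c)))
    (heig : heckeSer ℓ f = cst c₀ * f ^ a * h ^ p) :
    NC M A p (f ^ (T * (a - (ℓ + 1)))) := by
  obtain ⟨ζ, hζ⟩ := Fermat.Agent.ES.exists_primitiveRoot_Qb ℓ
  have hℓp : ℓ ≠ p := by
    rintro rfl
    exact hℓM (dvd_mul_left _ _)
  have hX0 : XD Qb p ≠ 0 := Fermat.Agent.S44.XD.XD_ne_zero p
  have hh0 : h ≠ 0 := by
    rintro rfl
    obtain ⟨r, ⟨d, hd, h1⟩, h2, -⟩ := hh
    rw [mul_zero] at h1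
    have h0 : RedTo A (0 : LaurentSeries Qb) (0 : LaurentSeries (kA A)) := by
      refine ⟨0, 1, ?_, ?_, ?_⟩
      · rw [map_one]; exact one_ne_zero
      · simp
      · simp
    exact h2 (h1.unique h0)
  have hc : cst c₀ ≠ 0 := by
    rw [Ne, map_eq_zero]; exact hc₀
  have h1 := NC.heckeSer hp hp5 hM hA hℓ hℓM hNC
  have h2 := (hNC.zpow ((ℓ : ℤ) + 1)).inv
  have h3 := h1.mul h2
  have h4 : NC M A p ((h ^ p) ^ T)⁻¹ := ((NC.ppow hh).zpow T).inv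
  have h5 := h3.mul h4
  have h6 : NC M A p (cst (c₀ ^ T) * f ^ (T * (a - (ℓ + 1)))) := by
    refine h5.congr ?_
    rw [Fermat.Agent.ES.heckeSer_mul ℓ hζ, heckeSer_zpow hζ, heckeSer_zpow hζ,
      Fermat.Agent.S44.XD.heckeSer_XD ℓ p hℓ hp hℓp, heig]
    have e1 : cst (c₀ ^ T) = cst c₀ ^ T := map_zpow₀ _ _ _
    rw [e1, mul_zpow, mul_zpow, mul_zpow, ← zpow_mul, ← zpow_mul, ← zpow_mul]
    have e2 : (XD Qb p ^ (ℓ + 1)) ^ (-c) = XD Qb p ^ (-c * ((ℓ : ℤ) + 1)) := by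
      rw [← zpow_natCast, ← zpow_mul]
      congr 1
      push_cast
      ring
    rw [e2]
    have e3 : f ^ (T * (a - (ℓ + 1))) = f ^ (a * T) * (f ^ (T * ((ℓ : ℤ) + 1)))⁻¹ := by
      rw [← zpow_neg, ← zpow_add₀ hf0]
      congr 1
      ring
    rw [e3]
    have hA1 : f ^ (T * ((ℓ : ℤ) + 1)) ≠ 0 := zpow_ne_zero _ hf0
    have hA2 : XD Qb p ^ (-c * ((ℓ : ℤ) + 1)) ≠ 0 := zpow_ne_zero _ hX0
    have hA3 : (h ^ p) ^ T ≠ 0 := zpow_ne_zero _ (pow_ne_zero _ hh0)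
    field_simp
  exact h6.of_const_mul (zpow_ne_zero _ hc₀)

/-- **(T6)**. -/
theorem nc_of_eigen (hp : p.Prime) (hp5 : 5 ≤ p) (hM : ¬ p ∣ M) (hA : A.LiesOverPrime p)
    (hℓ : ℓ.Prime) (hℓM : ¬ ℓ ∣ M * p) {f h : LaurentSeries Qb} {T c a : ℤ} {c₀ : Qb}
    (hc₀ : c₀ ≠ 0) (hf : HasRed M A f) (hh : HasRed M A h) (hT : ¬ (p : ℤ) ∣ T)
    (ha : ¬ (p : ℤ) ∣ a - (ℓ + 1))
    (hNC : NC M A p (f ^ T * XD Qb p ^ (-c)))
    (heig : heckeSer ℓ f = cst c₀ * f ^ a * h ^ p) :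
    NC M A p f := by
  have hf0 : f ≠ 0 := by
    rintro rfl
    obtain ⟨r, ⟨d, hd, h1⟩, h2, -⟩ := hf
    rw [mul_zero] at h1
    have h0 : RedTo A (0 : LaurentSeries Qb) (0 : LaurentSeries (kA A)) := by
      refine ⟨0, 1, ?_, ?_, ?_⟩
      · rw [map_one]; exact one_ne_zero
      · simp
      · simp
    exact h2 (h1.unique h0)
  refine NC.of_zpow hp (n := T * (a - (ℓ + 1))) ?_ hf
    (nc_zpow_of_eigen hp hp5 hM hA hℓ hℓM hc₀ hf0 hh hNC heig)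
  intro hd
  rcases (Int.prime_iff_natAbs_prime.mpr (by simpa using hp)).dvd_or_dvd hd with h | h
  · exact hT h
  · exact ha h

end

end Fermat.Agent.S44.Eis
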