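import Fermat.Agent.S44.Eis.Line
import Fermat.Agent.S44.VC.Main
import Fermat.Agent.S58.Test
import Fermat.Agent.ES.D.Cyclo
import Fermat.Agent.Lib.FrobDensity.ForES
import Fermat.Prelude.Def_FLTPrelim_FreyPackage
import Fermat.Prelude.Def_FLTPrelim_Modularity

/-!
# S44 / Eis / J3 : `ρ̄_E` irreducible ⟹ some good prime `ℓ` (outside any finite set) has `a_ℓ ≢ ℓ + 1 mod p`

`W` an integral Weierstrass curve, `Tor W p = E[p]` (`S58/Test.lean`: `card_tor`, `finite_tor`, `Test_finiteLevel`, `Test_es`),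
`cyc p : GQ →* (ZMod p)ˣ` (`ES/D/Cyclo.lean`: `cyc_frobenius`, `cyc_finiteLevel`).  NO Weil pairing.

PROOFS.
* `pow_rel` : `x ^ j - 1 = (∑ i<j, x^i) * (x - 1)` (`geom_sum_mul`), `x ^ j - c ^ j = (x - c) * ∑ …` (`Commute.mul_geom_sum₂`,
  `c` commutes with `x`).
* `frob_rel` : `S58.Test_es` gives `φ φ x - a_ℓ • φ x + ℓ • x = 0`; `a_ℓ = ℓ + 1 + p k` and `p • _ = 0` on `Tor W p`
  (`S58.Test_nsmul_coe`); integer scalars versus `ZMod p` scalars: `Int.cast_smul_eq_zsmul (ZMod p)`, `Nat.cast_smul_eq_nsmul`.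
* `eis_rel` : `⟨L₁, _, h₁⟩ := S58.Test_finiteLevel W hΔ p _`, `⟨L₂, _, h₂⟩ := ES.D.cyc_finiteLevel p`;
  `FD.frobPowerDensity (L₁ ⊔ L₂) _ g (S ∪ {p} ∪ (W.Δ.natAbs.primeFactors))` gives `ℓ A φ j` with `g = φ^j` on `L₁ ⊔ L₂`;
  so `(φ^j)⁻¹ * g` acts trivially on `Tor W p` and is killed by `cyc p`: `g • x = φ^j • x`, `cyc p g = cyc p φ ^ j = ℓ ^ j` (`cyc_frobenius`).
  `ℓ ∤ Δ` is `W.IsGoodPrimeFor ℓ` (unfold).  `frob_rel` + `pow_rel` in the ring `AddMonoid.End (Tor W p)` or `Module.End (ZMod p) (Tor W p)`.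
* `exists_prime_of_irreducible` : by contradiction, `eis_rel` + `Line.exists_stable_line_smul (χ₁ := 1) (χ₂ := cyc p)` give `v ≠ 0` with `g • v ∈ 𝔽_p v`.
  `N := Submodule.span (ZMod p) {v}` is Galois stable, `≠ ⊥`, and `≠ ⊤`: `Nat.card N ≤ p < p^2 = Nat.card (Tor W p)` (`S58.card_tor`)
  (or `finrank_span_singleton` and `Module.natCard_eq_pow_finrank`).
* `exists_prime_frey` : `hW = ⟨C, hC⟩`, `(VC.irreducible_iff P.freyCurve C p).2 hirr`, rewrite with `hC`; `W.Δ ≠ 0`: `(C • E).Δ = u⁻¹^12 * E.Δ`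
  (`WeierstrassCurve.variableChange_Δ`), `P.freyCurve.Δ ≠ 0` (see `S13`: `freyCurve_Δ_ne_zero` or the lemma used in `S13/LocFrey.lean`/`freyV_finite`), `WeierstrassCurve.map_Δ`.
-/

set_option autoImplicit false

open WeierstrassCurve WeierstrassCurve.Affine WeierstrassCurve.Affine.Point

namespace Fermat.Agent.S44.Eis

open Fermat.Agent.S31 (Qb GQ)
open Fermat.Agent.S58 (Tor EQ Pts)
open Fermat.Agent.ES.D (cyc)

theorem pow_rel {R : Type*} [Ring R] {x c : R} (hc : Commute x c) (h : (x - 1) * (x - c) = 0)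
    (j : ℕ) : (x ^ j - 1) * (x ^ j - c ^ j) = 0 := by
  rw [← geom_sum_mul, ← hc.mul_geom_sum₂, mul_assoc, ← mul_assoc (x - 1), h, zero_mul, mul_zero]

theorem frob_rel (W : WeierstrassCurve ℤ) {p : ℕ} (hp : p.Prime) (hp2 : p ≠ 2) {ℓ : ℕ}
    (hℓ : ℓ.Prime) (hgood : W.IsGoodPrimeFor ℓ) (hℓp : ℓ ≠ p)
    (ha : (p : ℤ) ∣ W.apOfModel ℓ - (ℓ + 1))
    (A : ValuationSubring Qb) (hA : A.LiesOverPrime ℓ) (φ : GQ) (hφ : A.IsFrobeniusAt φ ℓ)
    (x : Tor W p) : φ • φ • x - ((1 : ZMod p) + (ℓ : ZMod p)) • φ • x + (ℓ : ZMod p) • x = 0 := by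
  have h := S58.Test_es W (hp.odd_of_ne_two hp2) hℓ hgood
    (fun hd => hℓp ((Nat.prime_dvd_prime_iff_eq hℓ hp).1 hd)) A hA φ hφ x
  rw [AddMonoid.End.intCast_apply] at h
  have e : ((1 : ZMod p) + (ℓ : ZMod p)) = ((W.apOfModel ℓ : ℤ) : ZMod p) := by
    have := (ZMod.intCast_eq_intCast_iff_dvd_sub ((ℓ : ℤ) + 1) (W.apOfModel ℓ) p).2 ha
    rw [← this]
    push_cast
    ring
  rw [e, Int.cast_smul_eq_zsmul, Nat.cast_smul_eq_nsmul]
  exact h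

theorem J3_end_sub_apply {T : Type*} [AddCommGroup T] (f g : AddMonoid.End T) (x : T) :
    (f - g) x = f x - g x := rfl

/-- if `a_ℓ ≡ ℓ + 1` for almost all `ℓ`, then `(g - 1)(g - ω(g)) = 0` on `E[p]` for all `g`. -/
theorem eis_rel (W : WeierstrassCurve ℤ) (hΔ : W.Δ ≠ 0) {p : ℕ} [NeZero p] (hp : p.Prime)
    (hp2 : p ≠ 2) (S : Finset ℕ)
    (h : ∀ ℓ : ℕ, ℓ.Prime → W.IsGoodPrimeFor ℓ → ℓ ∉ S → ℓ ≠ p →
      (p : ℤ) ∣ W.apOfModel ℓ - (ℓ + 1))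
    (g : GQ) (x : Tor W p) :
    g • g • x - ((((1 : GQ →* (ZMod p)ˣ) g : (ZMod p)ˣ) : ZMod p) + ((cyc p g : (ZMod p)ˣ) : ZMod p)) • g • x
      + ((((1 : GQ →* (ZMod p)ˣ) g : (ZMod p)ˣ) : ZMod p) * ((cyc p g : (ZMod p)ˣ) : ZMod p)) • x = 0 := by
  obtain ⟨L₁, hL₁, h₁⟩ := S58.Test_finiteLevel W hΔ p hp.pos
  obtain ⟨L₂, hL₂, h₂⟩ := ES.D.cyc_finiteLevel p
  obtain ⟨ℓ, A, φ, j, hℓ, hℓS, hA, hφ, hgφ⟩ := FD.frobPowerDensity (L₁ ⊔ L₂)
    (IntermediateField.finiteDimensional_sup L₁ L₂) g (S ∪ {p} ∪ W.Δ.natAbs.primeFactors)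
  simp only [Finset.mem_union, Finset.mem_singleton, not_or] at hℓS
  obtain ⟨⟨hℓS, hℓp⟩, hℓΔ⟩ := hℓS
  have hgood : W.IsGoodPrimeFor ℓ := by
    intro hd
    exact hℓΔ (Nat.mem_primeFactors.2 ⟨hℓ, Int.natCast_dvd.1 hd, Int.natAbs_ne_zero.2 hΔ⟩)
  have ha := h ℓ hℓ hgood hℓS hℓp
  have hfix : ∀ y ∈ L₁ ⊔ L₂, ((φ ^ j)⁻¹ * g) y = y := by
    intro y hy
    rw [AlgEquiv.mul_apply, hgφ y hy, ← AlgEquiv.mul_apply, inv_mul_cancel, AlgEquiv.one_apply]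
  have e1 : DistribMulAction.toAddMonoidEnd GQ (Tor W p) g
      = DistribMulAction.toAddMonoidEnd GQ (Tor W p) φ ^ j := by
    have := h₁ ((φ ^ j)⁻¹ * g) (fun y hy => hfix y (le_sup_left (a := L₁) (b := L₂) hy))
    rw [← map_pow]
    have e : g = φ ^ j * ((φ ^ j)⁻¹ * g) := by group
    conv_lhs => rw [e, map_mul, this, mul_one]
  have e2 : ((cyc p g : (ZMod p)ˣ) : ZMod p) = ((ℓ ^ j : ℕ) : ZMod p) := by
    have := h₂ ((φ ^ j)⁻¹ * g) (fun y hy => hfix y (le_sup_right (a := L₁) (b := L₂) hy))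
    have e : g = φ ^ j * ((φ ^ j)⁻¹ * g) := by group
    conv_lhs => rw [e, map_mul, this, mul_one, map_pow, Units.val_pow_eq_pow_val,
      ES.D.cyc_frobenius p hℓ (fun hd => hℓp ((Nat.prime_dvd_prime_iff_eq hℓ hp).1 hd)) hA hφ]
    rw [Nat.cast_pow]
  set Φ : AddMonoid.End (Tor W p) := DistribMulAction.toAddMonoidEnd GQ (Tor W p) φ with hΦ
  have hrel : (Φ - 1) * (Φ - ((ℓ : ℕ) : AddMonoid.End (Tor W p))) = 0 := by
    ext y
    have := frob_rel W hp hp2 hℓ hgood hℓp ha A hA φ hφ y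
    rw [add_smul, one_smul, Nat.cast_smul_eq_nsmul, Nat.cast_smul_eq_nsmul] at this
    have e3 : ((Φ - 1) * (Φ - ((ℓ : ℕ) : AddMonoid.End (Tor W p)))) y
        = φ • (φ • y - ℓ • y) - (φ • y - ℓ • y) := by
      rw [AddMonoid.End.coe_mul, Function.comp_apply, J3_end_sub_apply,
        J3_end_sub_apply, AddMonoid.End.natCast_apply, AddMonoid.End.one_apply]
      rfl
    rw [e3, smul_sub, smul_comm φ ℓ y, AddMonoid.End.zero_apply, ← this]
    congr 1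
    abel
  have hpow := pow_rel (Nat.commute_cast Φ ℓ) hrel j
  rw [← e1, ← Nat.cast_pow] at hpow
  have hx := DFunLike.congr_fun hpow x
  have e4 : ((DistribMulAction.toAddMonoidEnd GQ (Tor W p) g - 1)
      * (DistribMulAction.toAddMonoidEnd GQ (Tor W p) g
        - ((ℓ ^ j : ℕ) : AddMonoid.End (Tor W p)))) x
      = g • (g • x - (ℓ ^ j) • x) - (g • x - (ℓ ^ j) • x) := by
    rw [AddMonoid.End.coe_mul, Function.comp_apply, J3_end_sub_apply,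
      J3_end_sub_apply, AddMonoid.End.natCast_apply, AddMonoid.End.one_apply]
    rfl
  rw [e4, smul_sub, smul_comm g (ℓ ^ j) x, AddMonoid.End.zero_apply] at hx
  rw [MonoidHom.one_apply, Units.val_one, one_mul, e2, add_smul, one_smul, Nat.cast_smul_eq_nsmul,
    Nat.cast_smul_eq_nsmul]
  rw [← hx]
  abel

/-- **(J3)** for an integral model. -/
theorem exists_prime_of_irreducible (W : WeierstrassCurve ℤ) (hΔ : W.Δ ≠ 0) {p : ℕ} (hp : p.Prime)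
    (hp2 : p ≠ 2) (hirr : GaloisRepIsIrreducible (K := Qb) ℚ (EQ W).toAffine p) (S : Finset ℕ) :
    ∃ ℓ : ℕ, ℓ.Prime ∧ W.IsGoodPrimeFor ℓ ∧ ℓ ∉ S ∧ ℓ ≠ p ∧
      ¬ (p : ℤ) ∣ W.apOfModel ℓ - (ℓ + 1) := by
  by_contra hcon
  push Not at hcon
  have hF : Fact p.Prime := ⟨hp⟩
  have hN : NeZero p := ⟨hp.ne_zero⟩
  have hfin : Finite (Tor W p) := Fermat.Agent.S58.finite_tor W hΔ p hp.pos
  have hnt : Nontrivial (Tor W p) := hirr.1
  obtain ⟨v, hv, hvg⟩ := Line.exists_stable_line_smul (p := p) (G := GQ) (U := Tor W p) 1 (cyc p)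
    (fun g x => eis_rel W hΔ hp hp2 S hcon g x)
  have hst : IsGaloisStable (K := Qb) (W' := (EQ W).toAffine) ℚ
      (Submodule.span (ZMod p) {v}) := by
    intro σ x hx
    obtain ⟨a, rfl⟩ := Submodule.mem_span_singleton.1 hx
    obtain ⟨c, hc⟩ := hvg σ
    have h1 : σ • (a • v) = a • (σ • v) :=
      ZMod.map_smul (DistribSMul.toAddMonoidHom (Tor W p) σ) a v
    rw [h1, hc, smul_smul]
    exact Submodule.smul_mem _ _ (Submodule.mem_span_singleton_self v)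
  rcases hirr.2 _ hst with h | h
  · exact hv (Submodule.span_singleton_eq_bot.1 h)
  · have hsurj : Function.Surjective (fun a : ZMod p => a • v) := by
      intro x
      have hx : x ∈ Submodule.span (ZMod p) {v} := by
        rw [h]
        exact Submodule.mem_top
      exact Submodule.mem_span_singleton.1 hx
    have hle := Nat.card_le_card_of_surjective _ hsurj
    rw [Fermat.Agent.S58.card_tor W hΔ p hp.pos, Nat.card_zmod] at hle
    have h2 := hp.two_le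
    nlinarith

theorem J3_frey_Δ_ne_zero (P : FreyPackage) : P.freyCurve.Δ ≠ 0 := by
  have hΔ : P.freyCurve.Δ =
      ((P.a : ℚ) ^ P.p * (P.b : ℚ) ^ P.p * (P.c : ℚ) ^ P.p) ^ 2 / 256 := by
    have hFLT : ((P.a : ℚ) ^ P.p + (P.b : ℚ) ^ P.p = (P.c : ℚ) ^ P.p) := by exact_mod_cast P.hFLT
    rw [← hFLT]
    simp only [FreyPackage.freyCurve, WeierstrassCurve.Δ, WeierstrassCurve.b₂, WeierstrassCurve.b₄,
      WeierstrassCurve.b₆, WeierstrassCurve.b₈]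
    ring
  rw [hΔ]
  have ha : (P.a : ℚ) ≠ 0 := by exact_mod_cast P.ha0
  have hb : (P.b : ℚ) ≠ 0 := by exact_mod_cast P.hb0
  have hc : (P.c : ℚ) ≠ 0 := by exact_mod_cast P.hc0
  positivity

/-- **(J3)**, Frey form (= (E3) of the blueprint). -/
theorem exists_prime_frey (P : FreyPackage) (W : WeierstrassCurve ℤ)
    (hW : W.IsIntegralModelOf P.freyCurve)
    (hirr : GaloisRepIsIrreducible (K := AlgebraicClosure ℚ) ℚ P.freyCurve P.p) (S : Finset ℕ) :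
    ∃ ℓ : ℕ, ℓ.Prime ∧ W.IsGoodPrimeFor ℓ ∧ ℓ ∉ S ∧ ℓ ≠ P.p ∧
      ¬ (P.p : ℤ) ∣ W.apOfModel ℓ - (ℓ + 1) := by
  obtain ⟨C, hC⟩ := hW
  have h1 : GaloisRepIsIrreducible (K := Qb) ℚ (C • P.freyCurve).toAffine P.p :=
    (VC.irreducible_iff P.freyCurve C P.p).2 hirr
  rw [hC] at h1
  have hΔ : W.Δ ≠ 0 := by
    intro h0
    have h2 : (C • P.freyCurve).Δ = 0 := by
      rw [hC, WeierstrassCurve.map_Δ, h0]
      simp
    rw [WeierstrassCurve.variableChange_Δ] at h2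
    rcases mul_eq_zero.1 h2 with h3 | h3
    · exact absurd h3 (pow_ne_zero _ (Units.ne_zero _))
    · exact J3_frey_Δ_ne_zero P h3
  exact exists_prime_of_irreducible W hΔ P.pp (by have := P.hp5; omega) h1 S

end Fermat.Agent.S44.Eis
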