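import Mathlib

/-!
# S44 / Eis / Line : (RED) of the blueprint (board #2382 (7)), Mathlib only

`U ≠ 0` a finite `𝔽_p`-vector space, `G` a group acting linearly, `χ₁ χ₂ : G → 𝔽_pˣ` characters with
`(g - χ₁ g)(g - χ₂ g) = 0` on `U` for all `g`.  Then `U` contains a `G`-stable line.

PROOFS.
* `pow_p_eq_one` : `n := f - 1`, `n * n = 0`; by induction `f ^ k = 1 + k • n`; `k = p`: `p • n = 0` (`CharP`/`ZMod` module:
  `(p : ZMod p) = 0`, `Nat.cast_smul_eq_nsmul (ZMod p)`).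
* `exists_fixed` : `φ : G →* Equiv.Perm U`, `g ↦ ⟨ρ g, ρ g⁻¹, _, _⟩`; `P := φ.range` is a `p`-group (`IsPGroup.of_...`: every element has
  `x ^ p ^ 1 = 1` by `pow_p_eq_one`, `map_pow`); `IsPGroup.card_modEq_card_fixedPoints` for the action of `P` on `U`;
  `Nat.card U = p ^ finrank`, `finrank ≥ 1` (`Module.natCard_eq_pow_finrank`/`card_eq_pow_finrank`), so `p ∣ card (fixedPoints P U)`, and `0` is a
  fixed point: there are at least `p ≥ 2` fixed points, one of them is `≠ 0`.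
* `exists_stable_line_one` : `H := χ.ker`; `ρ ∘ H.subtype` is unipotent, so `exists_fixed` gives `v₀ ≠ 0` in
  `UH := {v | ∀ h ∈ H, ρ h v = v}`; `UH` is stable under `ρ g` (`H` normal: `ρ h (ρ g v) = ρ g (ρ (g⁻¹ h g) v)`).
  `(ZMod p)ˣ` is cyclic, so is `χ.range`: there is `g₀` such that every `χ g` is `χ g₀ ^ n`, `n : ℕ` (finite group:
  `mem_powers_iff_mem_zpowers`).  `w := ρ g₀ v₀ - v₀ ∈ UH`.  If `w = 0`, `v := v₀`, `c₀ := 1`; otherwise `v := w`, `c₀ := χ g₀`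
  (apply the hypothesis at `g₀` to `v₀`).  For `g` with `χ g = χ g₀ ^ n`: `h := (g₀ ^ n)⁻¹ * g ∈ H`, `ρ g v = ρ g₀ ^ n (ρ h v) = c₀ ^ n • v`.
* `exists_stable_line` : apply `exists_stable_line_one` to `ρ' g := ((χ₂ g)⁻¹ : ZMod p) • ρ g` (a monoid hom) and `χ := χ₁ / χ₂`.
* `exists_stable_line_smul` : `ρ g := (DistribMulAction.toAddMonoidHom U g).toZModLinearMap p`.
-/

set_option autoImplicit false

namespace Fermat.Agent.S44.Eis.Line

variable {p : ℕ} [Fact p.Prime] {G U : Type*} [Group G] [AddCommGroup U] [Module (ZMod p) U]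

theorem pow_p_eq_one {f : Module.End (ZMod p) U} (hf : (f - 1) * (f - 1) = 0) : f ^ p = 1 := by
  have key : ∀ k : ℕ, f ^ k = 1 + k • (f - 1) := by
    intro k
    induction k with
    | zero => simp
    | succ k ih =>
      have e : f = 1 + (f - 1) := by abel
      have e2 : (1 + k • (f - 1)) * (1 + (f - 1)) = 1 + (k + 1) • (f - 1) + k • ((f - 1) * (f - 1)) := by
        rw [add_mul, mul_add, mul_add, one_mul, one_mul, mul_one, smul_mul_assoc, add_smul, one_smul]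
        abel
      rw [pow_succ, ih]
      conv_lhs => rw [e]
      have e3 : (1 : Module.End (ZMod p) U) + (f - 1) - 1 = f - 1 := by abel
      rw [e3, e2, hf, smul_zero, add_zero]
  rw [key p, ← Nat.cast_smul_eq_nsmul (ZMod p), ZMod.natCast_self, zero_smul, add_zero]

/-- a group of unipotent operators of a finite `𝔽_p`-vector space has a common fixed vector. -/
theorem exists_fixed [Finite U] [Nontrivial U] (ρ : G →* Module.End (ZMod p) U)
    (h : ∀ g, (ρ g - 1) * (ρ g - 1) = 0) : ∃ v : U, v ≠ 0 ∧ ∀ g, ρ g v = v := by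
  let _ : MulAction G U := MulAction.compHom U ρ
  have hsmul : ∀ (g : G) (v : U), g • v = ρ g v := fun _ _ => rfl
  set φ : G →* Equiv.Perm U := MulAction.toPermHom G U with hφ
  have hφa : ∀ (g : G) (v : U), φ g v = ρ g v := fun _ _ => rfl
  have hP : IsPGroup p φ.range := by
    rintro ⟨x, g, rfl⟩
    refine ⟨1, ?_⟩
    apply Subtype.ext
    rw [pow_one]
    show φ g ^ p = 1
    rw [← map_pow]
    ext v
    rw [hφa, map_pow, pow_p_eq_one (h g)]
    rfl
  have hfin : Module.Finite (ZMod p) U := Module.Finite.of_finite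
  have hcard : p ∣ Nat.card U := by
    rw [Module.natCard_eq_pow_finrank (K := ZMod p) (V := U), Nat.card_zmod]
    exact dvd_pow_self p (Module.finrank_pos (R := ZMod p) (M := U)).ne'
  have h0 : (0 : U) ∈ MulAction.fixedPoints φ.range U := by
    rintro ⟨x, g, rfl⟩
    show φ g 0 = 0
    rw [hφa, map_zero]
  obtain ⟨v, hv, hv0⟩ := hP.exists_fixed_point_of_prime_dvd_card_of_fixed_point U hcard h0
  refine ⟨v, hv0.symm, fun g => ?_⟩
  exact hv ⟨φ g, g, rfl⟩

theorem exists_stable_line_one [Finite U] [Nontrivial U] (ρ : G →* Module.End (ZMod p) U)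
    (χ : G →* (ZMod p)ˣ)
    (h : ∀ g, (ρ g - algebraMap (ZMod p) (Module.End (ZMod p) U) (χ g : ZMod p)) * (ρ g - 1) = 0) :
    ∃ v : U, v ≠ 0 ∧ ∀ g, ∃ c : ZMod p, ρ g v = c • v := by
  -- a fixed vector of the kernel
  obtain ⟨v₀, hv₀, hfix₀⟩ := exists_fixed (ρ.comp χ.ker.subtype) (by
    intro g
    have h1 := h (g : G)
    have h2 : χ (g : G) = 1 := g.2
    rw [h2, Units.val_one, map_one] at h1
    exact h1)
  have hfix₀' : ∀ k ∈ χ.ker, ρ k v₀ = v₀ := fun k hk => hfix₀ ⟨k, hk⟩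
  -- stability of the fixed space
  have hstab : ∀ (g : G) (v : U), (∀ k ∈ χ.ker, ρ k v = v) →
      ∀ k ∈ χ.ker, ρ k (ρ g v) = ρ g v := by
    intro g v hv k hk
    have hk' : g⁻¹ * k * g ∈ χ.ker := by
      rw [MonoidHom.mem_ker] at hk ⊢
      rw [map_mul, map_mul, hk, mul_one, map_inv, inv_mul_cancel]
    have e : k * g = g * (g⁻¹ * k * g) := by group
    calc ρ k (ρ g v) = ρ (k * g) v := by rw [map_mul]; rfl
      _ = ρ (g * (g⁻¹ * k * g)) v := by rw [← e]
      _ = ρ g (ρ (g⁻¹ * k * g) v) := by rw [map_mul]; rfl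
      _ = ρ g v := by rw [hv _ hk']
  -- a generator of the image of `χ`
  obtain ⟨⟨_, g₀, rfl⟩, hgen⟩ := IsCyclic.exists_generator (α := χ.range)
  have hpow : ∀ g, ∃ n : ℕ, χ g = χ g₀ ^ n := by
    intro g
    have h1 := hgen ⟨χ g, g, rfl⟩
    rw [← mem_powers_iff_mem_zpowers] at h1
    obtain ⟨n, hn⟩ := h1
    exact ⟨n, by simpa using (congrArg Subtype.val hn).symm⟩
  -- an eigenvector of `g₀`
  obtain ⟨v, hv, hvfix, c₀, hc₀⟩ : ∃ v : U, v ≠ 0 ∧ (∀ k ∈ χ.ker, ρ k v = v) ∧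
      ∃ c₀ : ZMod p, ρ g₀ v = c₀ • v := by
    by_cases hw : ρ g₀ v₀ - v₀ = 0
    · exact ⟨v₀, hv₀, hfix₀', 1, by rw [one_smul]; exact sub_eq_zero.mp hw⟩
    · refine ⟨ρ g₀ v₀ - v₀, hw, ?_, (χ g₀ : ZMod p), ?_⟩
      · intro k hk
        rw [map_sub, hstab g₀ v₀ hfix₀' k hk, hfix₀' k hk]
      · have h1 := LinearMap.congr_fun (h g₀) v₀
        simp only [Module.End.mul_apply, LinearMap.sub_apply, Module.End.one_apply,
          Module.algebraMap_end_apply, LinearMap.zero_apply] at h1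
        exact sub_eq_zero.mp h1
  refine ⟨v, hv, fun g => ?_⟩
  obtain ⟨n, hn⟩ := hpow g
  have hk : (g₀ ^ n)⁻¹ * g ∈ χ.ker := by
    rw [MonoidHom.mem_ker, map_mul, map_inv, map_pow, hn, inv_mul_cancel]
  have hpw : ∀ m : ℕ, ρ (g₀ ^ m) v = c₀ ^ m • v := by
    intro m
    induction m with
    | zero => simp
    | succ m ih =>
      rw [pow_succ, map_mul, Module.End.mul_apply, hc₀, map_smul, ih, smul_smul, pow_succ,
        mul_comm]
  refine ⟨c₀ ^ n, ?_⟩
  have e : g = g₀ ^ n * ((g₀ ^ n)⁻¹ * g) := by group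
  calc ρ g v = ρ (g₀ ^ n * ((g₀ ^ n)⁻¹ * g)) v := by rw [← e]
    _ = ρ (g₀ ^ n) (ρ ((g₀ ^ n)⁻¹ * g) v) := by rw [map_mul]; rfl
    _ = c₀ ^ n • v := by rw [hvfix _ hk, hpw]

/-- **(RED)** -/
theorem exists_stable_line [Finite U] [Nontrivial U] (ρ : G →* Module.End (ZMod p) U)
    (χ₁ χ₂ : G →* (ZMod p)ˣ)
    (h : ∀ g, (ρ g - algebraMap (ZMod p) (Module.End (ZMod p) U) (χ₁ g : ZMod p)) *
      (ρ g - algebraMap (ZMod p) (Module.End (ZMod p) U) (χ₂ g : ZMod p)) = 0) :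
    ∃ v : U, v ≠ 0 ∧ ∀ g, ∃ c : ZMod p, ρ g v = c • v := by
  let ρ' : G →* Module.End (ZMod p) U :=
    { toFun := fun g => (((χ₂ g)⁻¹ : (ZMod p)ˣ) : ZMod p) • ρ g
      map_one' := by simp
      map_mul' := fun a b => by
        simp only [map_mul, mul_inv, Units.val_mul]
        rw [smul_mul_smul_comm] }
  have hρ' : ∀ g, ρ' g = (((χ₂ g)⁻¹ : (ZMod p)ˣ) : ZMod p) • ρ g := fun g => rfl
  have key : ∀ g, (ρ' g - algebraMap (ZMod p) (Module.End (ZMod p) U) ((χ₁ / χ₂) g : ZMod p)) *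
      (ρ' g - 1) = 0 := by
    intro g
    have h1 : ρ' g - algebraMap (ZMod p) (Module.End (ZMod p) U) ((χ₁ / χ₂) g : ZMod p) =
        (((χ₂ g)⁻¹ : (ZMod p)ˣ) : ZMod p) •
          (ρ g - algebraMap (ZMod p) (Module.End (ZMod p) U) (χ₁ g : ZMod p)) := by
      rw [hρ', smul_sub, MonoidHom.div_apply, div_eq_mul_inv, Units.val_mul, mul_comm,
        Algebra.algebraMap_eq_smul_one, Algebra.algebraMap_eq_smul_one, smul_smul]
    have h2 : ρ' g - 1 = (((χ₂ g)⁻¹ : (ZMod p)ˣ) : ZMod p) •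
          (ρ g - algebraMap (ZMod p) (Module.End (ZMod p) U) (χ₂ g : ZMod p)) := by
      rw [hρ', smul_sub, Algebra.algebraMap_eq_smul_one, smul_smul, Units.inv_mul, one_smul]
    rw [h1, h2, smul_mul_smul_comm, h g, smul_zero]
  obtain ⟨v, hv, hvg⟩ := exists_stable_line_one ρ' (χ₁ / χ₂) key
  refine ⟨v, hv, fun g => ?_⟩
  obtain ⟨c, hc⟩ := hvg g
  refine ⟨(χ₂ g : ZMod p) * c, ?_⟩
  rw [hρ', LinearMap.smul_apply] at hc
  rw [mul_smul, ← hc, smul_smul, Units.mul_inv, one_smul]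

/-- **(RED)**, elementwise, for a `DistribMulAction`. -/
theorem exists_stable_line_smul [Finite U] [Nontrivial U] [DistribMulAction G U]
    (χ₁ χ₂ : G →* (ZMod p)ˣ)
    (h : ∀ (g : G) (x : U), g • g • x - ((χ₁ g : ZMod p) + (χ₂ g : ZMod p)) • g • x
      + ((χ₁ g : ZMod p) * (χ₂ g : ZMod p)) • x = 0) :
    ∃ v : U, v ≠ 0 ∧ ∀ g : G, ∃ c : ZMod p, g • v = c • v := by
  let ρ : G →* Module.End (ZMod p) U :=
    { toFun := fun g => (DistribSMul.toAddMonoidHom U g).toZModLinearMap p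
      map_one' := by
        ext x
        simp
      map_mul' := fun a b => by
        ext x
        simp [mul_smul] }
  have hρ : ∀ g x, ρ g x = g • x := fun g x => rfl
  have key : ∀ g, (ρ g - algebraMap (ZMod p) (Module.End (ZMod p) U) (χ₁ g : ZMod p)) *
      (ρ g - algebraMap (ZMod p) (Module.End (ZMod p) U) (χ₂ g : ZMod p)) = 0 := by
    intro g
    ext x
    have hx := h g x
    simp only [Module.End.mul_apply, LinearMap.sub_apply, Module.algebraMap_end_apply,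
      LinearMap.zero_apply, map_sub, map_smul, hρ, smul_sub]
    rw [← hx, add_smul, mul_smul, smul_comm (χ₂ g : ZMod p) (χ₁ g : ZMod p) x]
    abel
  obtain ⟨v, hv, hvg⟩ := exists_stable_line ρ χ₁ χ₂ key
  exact ⟨v, hv, fun g => hvg g⟩

end Fermat.Agent.S44.Eis.Line
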